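import Mathlib

/-!
# Fermat's Last Theorem for small regular primes: common definitions

Used for the statements about Frey packages with `p ∈ {5, 7, 11, 13}`.
-/

namespace Fermat.Agent.Kummer

open NumberField

/-- Case I of FLT for exponent `p`. -/
def CaseI (p : ℕ) : Prop :=
  ∀ a b c : ℤ, ¬ (p : ℤ) ∣ a * b * c → a ^ p + b ^ p ≠ c ^ p

/-- The statement of Kummer's lemma for the field `K` (meant to be the `p`-th cyclotomic field). -/
def KummerLemma (p : ℕ) (K : Type*) [Field K] [NumberField K] : Prop :=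
  ∀ u : (𝓞 K)ˣ, (∃ n : ℤ, (p : 𝓞 K) ∣ (u : 𝓞 K) - (n : 𝓞 K)) → ∃ v : (𝓞 K)ˣ, u = v ^ p

end Fermat.Agent.Kummer
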