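import Mathlib
import Fermat.Agent.Kummer.Defs

/-!
# Case I of Fermat's Last Theorem for `p = 5, 7, 11, 13` by Sophie Germain's theorem
-/

set_option autoImplicit false

namespace Fermat.Agent.Kummer

open Finset

/-- The cofactor `(b ^ p + c ^ p) / (b + c)`. -/
def sgPhi (p : ℕ) (b c : ℤ) : ℤ := ∑ i ∈ range p, b ^ i * (-c) ^ (p - 1 - i)

lemma sgPhi_mul {p : ℕ} (hp : Odd p) (b c : ℤ) : (b + c) * sgPhi p b c = b ^ p + c ^ p := by
  have h := (Commute.all b (-c)).geom_sum₂_mul p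
  rw [hp.neg_pow] at h
  unfold sgPhi
  linear_combination h

/-- `b + c` and the cofactor are coprime. -/
lemma sg_coprime {p : ℕ} (hp : p.Prime) (hodd : Odd p) {a b c : ℤ} (h : a ^ p + b ^ p + c ^ p = 0)
    (hbc : IsCoprime b c) (hpa : ¬ (p : ℤ) ∣ a) : IsCoprime (b + c) (sgPhi p b c) := by
  apply IsRelPrime.isCoprime
  intro d hd1 hd2
  have h1 : d ∣ (p : ℤ) * (-c) ^ (p - 1) := by
    have : d ∣ b - (-c) := by simpa using hd1
    exact (dvd_geom_sum₂_iff_of_dvd_sub this).1 hd2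
  have hc1 : IsCoprime (b + c) c := by
    have := hbc.add_mul_left_left 1
    simpa using this
  have hc2 : IsCoprime d (-c) := (hc1.of_isCoprime_of_dvd_left hd1).neg_right
  have h2 : d ∣ (p : ℤ) := (hc2.pow_right).dvd_of_dvd_mul_right h1
  have hpp : Prime (p : ℤ) := Nat.prime_iff_prime_int.1 hp
  have hc3 : IsCoprime (p : ℤ) a := hpp.coprime_iff_not_dvd.2 hpa
  have h3 : d ∣ a ^ p := by
    have : (b + c) ∣ a ^ p := ⟨-sgPhi p b c, by rw [mul_neg, sgPhi_mul hodd]; linarith⟩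
    exact hd1.trans this
  have hc4 : IsCoprime (p : ℤ) d := (hc3.pow_right (n := p)).of_isCoprime_of_dvd_right h3
  exact hc4.isUnit_of_dvd' h2 dvd_rfl

lemma sg_pow {p : ℕ} (hp : p.Prime) (hodd : Odd p) {a b c : ℤ} (h : a ^ p + b ^ p + c ^ p = 0)
    (hbc : IsCoprime b c) (hpa : ¬ (p : ℤ) ∣ a) :
    (∃ A : ℤ, b + c = A ^ p) ∧ ∃ T : ℤ, sgPhi p b c = T ^ p := by
  apply Int.eq_pow_of_mul_eq_pow_odd (c := -a) (sg_coprime hp hodd h hbc hpa) hodd
  rw [sgPhi_mul hodd, hodd.neg_pow]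
  linarith

/-- The core of Sophie Germain's argument, assuming `q ∣ a`. -/
lemma sg_core {p q : ℕ} (hp : p.Prime) (hodd : Odd p) [Fact q.Prime]
    (h1 : ∀ x y z : ZMod q, x ^ p + y ^ p + z ^ p = 0 → x = 0 ∨ y = 0 ∨ z = 0)
    (h2 : ∀ x : ZMod q, x ^ p ≠ (p : ZMod q))
    {a b c : ℤ} (h : a ^ p + b ^ p + c ^ p = 0) (hab : IsCoprime a b) (hac : IsCoprime a c)
    (hbc : IsCoprime b c) (hpa : ¬ (p : ℤ) ∣ a) (hpb : ¬ (p : ℤ) ∣ b) (hpc : ¬ (p : ℤ) ∣ c)
    (hqa : (q : ℤ) ∣ a) : False := by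
  have hq : q.Prime := Fact.out
  have hqu : ¬ IsUnit (q : ℤ) := (Nat.prime_iff_prime_int.1 hq).not_isUnit
  obtain ⟨⟨A, hA⟩, ⟨T, hT⟩⟩ := sg_pow hp hodd h hbc hpa
  obtain ⟨⟨B, hB⟩, -⟩ := sg_pow hp hodd (a := b) (b := a) (c := c) (by linarith) hac hpb
  obtain ⟨⟨C, hC⟩, -⟩ := sg_pow hp hodd (a := c) (b := a) (c := b) (by linarith) hab hpc
  have ha0 : (a : ZMod q) = 0 := (ZMod.intCast_zmod_eq_zero_iff_dvd a q).2 hqa
  have hb0 : (b : ZMod q) ≠ 0 := by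
    intro hb
    exact hqu (hab.isUnit_of_dvd' hqa ((ZMod.intCast_zmod_eq_zero_iff_dvd b q).1 hb))
  have hc0 : (c : ZMod q) ≠ 0 := by
    intro hc
    exact hqu (hac.isUnit_of_dvd' hqa ((ZMod.intCast_zmod_eq_zero_iff_dvd c q).1 hc))
  have hA' : (b : ZMod q) + c = (A : ZMod q) ^ p := by exact_mod_cast congrArg (Int.cast : ℤ → ZMod q) hA
  have hB' : (a : ZMod q) + c = (B : ZMod q) ^ p := by exact_mod_cast congrArg (Int.cast : ℤ → ZMod q) hB
  have hC' : (a : ZMod q) + b = (C : ZMod q) ^ p := by exact_mod_cast congrArg (Int.cast : ℤ → ZMod q) hC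
  have hT' : ∑ i ∈ range p, (b : ZMod q) ^ i * (-(c : ZMod q)) ^ (p - 1 - i) = (T : ZMod q) ^ p := by
    have := congrArg (Int.cast : ℤ → ZMod q) hT
    unfold sgPhi at this
    push_cast at this
    exact this
  rw [ha0, zero_add] at hB' hC'
  have hsum : (B : ZMod q) ^ p + (C : ZMod q) ^ p + (-(A : ZMod q)) ^ p = 0 := by
    rw [hodd.neg_pow, ← hA', ← hB', ← hC']; ring
  rcases h1 _ _ _ hsum with hB0 | hC0 | hA0
  · rw [hB0, zero_pow hp.ne_zero] at hB'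
    exact hc0 hB'
  · rw [hC0, zero_pow hp.ne_zero] at hC'
    exact hb0 hC'
  · rw [neg_eq_zero] at hA0
    rw [hA0, zero_pow hp.ne_zero] at hA'
    have hbc' : (b : ZMod q) = -(c : ZMod q) := by linear_combination hA'
    rw [hbc', geom_sum₂_self, hB', ← hodd.neg_pow, ← pow_mul, mul_comm p, pow_mul] at hT'
    have hB0 : (-(B : ZMod q)) ^ (p - 1) ≠ 0 := by
      apply pow_ne_zero
      rw [neg_ne_zero]
      intro hB0
      rw [hB0, zero_pow hp.ne_zero] at hB'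
      exact hc0 hB'
    apply h2 ((T : ZMod q) / (-(B : ZMod q)) ^ (p - 1))
    rw [div_pow, ← hT']
    field_simp

/-- **Sophie Germain's theorem** for pairwise coprime triples. -/
theorem sg_coprime_case {p q : ℕ} (hp : p.Prime) (hodd : Odd p) [Fact q.Prime]
    (h1 : ∀ x y z : ZMod q, x ^ p + y ^ p + z ^ p = 0 → x = 0 ∨ y = 0 ∨ z = 0)
    (h2 : ∀ x : ZMod q, x ^ p ≠ (p : ZMod q))
    {a b c : ℤ} (h : a ^ p + b ^ p + c ^ p = 0) (hab : IsCoprime a b) (hac : IsCoprime a c)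
    (hbc : IsCoprime b c) (hpa : ¬ (p : ℤ) ∣ a) (hpb : ¬ (p : ℤ) ∣ b) (hpc : ¬ (p : ℤ) ∣ c) :
    False := by
  have hz : (a : ZMod q) ^ p + (b : ZMod q) ^ p + (c : ZMod q) ^ p = 0 := by
    exact_mod_cast congrArg (Int.cast : ℤ → ZMod q) h
  rcases h1 _ _ _ hz with h0 | h0 | h0
  · exact sg_core hp hodd h1 h2 h hab hac hbc hpa hpb hpc
      ((ZMod.intCast_zmod_eq_zero_iff_dvd a q).1 h0)
  · exact sg_core hp hodd h1 h2 (a := b) (b := a) (c := c) (by linarith) hab.symm hbc hac hpb hpa hpc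
      ((ZMod.intCast_zmod_eq_zero_iff_dvd b q).1 h0)
  · exact sg_core hp hodd h1 h2 (a := c) (b := a) (c := b) (by linarith) hac.symm hbc.symm hab
      hpc hpa hpb ((ZMod.intCast_zmod_eq_zero_iff_dvd c q).1 h0)

/-- **Sophie Germain's theorem**. -/
theorem caseI_of_sophieGermain {p q : ℕ} (hp : p.Prime) (hodd : Odd p) [Fact q.Prime]
    (h1 : ∀ x y z : ZMod q, x ^ p + y ^ p + z ^ p = 0 → x = 0 ∨ y = 0 ∨ z = 0)
    (h2 : ∀ x : ZMod q, x ^ p ≠ (p : ZMod q)) : CaseI p := by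
  intro a b c hpabc h
  have hp0 : p ≠ 0 := hp.ne_zero
  have hb0 : b ≠ 0 := by
    rintro rfl
    exact hpabc (by simp)
  obtain ⟨a', b', hcop, ha, hb⟩ : ∃ a' b' : ℤ, IsCoprime a' b' ∧ a = a' * (Int.gcd a b : ℤ) ∧
      b = b' * (Int.gcd a b : ℤ) := by
    have hg : 0 < Int.gcd a b := Int.gcd_pos_of_ne_zero_right _ hb0
    obtain ⟨a', b', h1, h2, h3⟩ := Int.exists_gcd_one hg
    exact ⟨a', b', Int.isCoprime_iff_gcd_eq_one.2 h1, h2, h3⟩
  set d : ℤ := (Int.gcd a b : ℤ) with hd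
  have hd0 : d ≠ 0 := by
    intro h0
    rw [h0, mul_zero] at hb
    exact hb0 hb
  have hdc : d ∣ c := by
    have : d ^ p ∣ c ^ p := ⟨a' ^ p + b' ^ p, by rw [← h, ha, hb]; ring⟩
    exact (Int.pow_dvd_pow_iff hp0).1 this
  obtain ⟨c', hc⟩ := hdc
  have h' : a' ^ p + b' ^ p = c' ^ p := by
    apply mul_left_cancel₀ (pow_ne_zero p hd0)
    have := h
    rw [ha, hb, hc] at this
    linear_combination this
  have hdiv : a' * b' * c' ∣ a * b * c := ⟨d ^ 3, by rw [ha, hb, hc]; ring⟩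
  have hpabc' : ¬ (p : ℤ) ∣ a' * b' * c' := fun hh => hpabc (hh.trans hdiv)
  have hpa : ¬ (p : ℤ) ∣ a' := fun hh => hpabc' ((hh.mul_right _).mul_right _)
  have hpb : ¬ (p : ℤ) ∣ b' := fun hh => hpabc' ((hh.mul_left _).mul_right _)
  have hpc : ¬ (p : ℤ) ∣ c' := fun hh => hpabc' (hh.mul_left _)
  obtain ⟨k, hk⟩ : ∃ k, p = k + 1 := ⟨p - 1, by have := hp.pos; omega⟩
  have hac : IsCoprime a' c' := by
    have e1 : IsCoprime a' (b' ^ p) := hcop.pow_right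
    have e2 : IsCoprime a' (b' ^ p + a' * a' ^ k) := e1.add_mul_left_right _
    have e3 : b' ^ p + a' * a' ^ k = c' ^ p := by rw [← h', hk]; ring
    rw [e3] at e2
    exact (IsCoprime.pow_right_iff hp.pos).1 e2
  have hbc : IsCoprime b' c' := by
    have e1 : IsCoprime b' (a' ^ p) := hcop.symm.pow_right
    have e2 : IsCoprime b' (a' ^ p + b' * b' ^ k) := e1.add_mul_left_right _
    have e3 : a' ^ p + b' * b' ^ k = c' ^ p := by rw [← h', hk]; ring
    rw [e3] at e2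
    exact (IsCoprime.pow_right_iff hp.pos).1 e2
  refine sg_coprime_case hp hodd h1 h2 (a := a') (b := b') (c := -c') ?_ hcop hac.neg_right
    hbc.neg_right hpa hpb (by rwa [dvd_neg])
  rw [hodd.neg_pow, h']; ring

/-- Criterion for the two hypotheses, from the list `S` of `p`-th powers mod `q`. -/
lemma sg_hyp {p q : ℕ} (S : Finset (ZMod q))
    (hS : ∀ x : ZMod q, x ^ p ∈ S ∧ (x ^ p = 0 → x = 0))
    (hA : ∀ s ∈ S, ∀ t ∈ S, ∀ u ∈ S, s + t + u = 0 → s = 0 ∨ t = 0 ∨ u = 0)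
    (hB : (p : ZMod q) ∉ S) :
    (∀ x y z : ZMod q, x ^ p + y ^ p + z ^ p = 0 → x = 0 ∨ y = 0 ∨ z = 0) ∧
      ∀ x : ZMod q, x ^ p ≠ (p : ZMod q) := by
  refine ⟨fun x y z h => ?_, fun x h => hB (h ▸ (hS x).1)⟩
  rcases hA _ (hS x).1 _ (hS y).1 _ (hS z).1 h with h | h | h
  · exact Or.inl ((hS x).2 h)
  · exact Or.inr (Or.inl ((hS y).2 h))
  · exact Or.inr (Or.inr ((hS z).2 h))

theorem caseI_five : CaseI 5 := by
  obtain ⟨h1, h2⟩ := sg_hyp (p := 5) (q := 11) {0, 1, -1} (by decide) (by decide) (by decide)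
  have : Fact (Nat.Prime 11) := ⟨by norm_num⟩
  exact caseI_of_sophieGermain (by norm_num) (by decide) h1 h2

theorem caseI_seven : CaseI 7 := by
  obtain ⟨h1, h2⟩ := sg_hyp (p := 7) (q := 29) {0, 1, -1, 12, -12} (by decide) (by decide)
    (by decide)
  have : Fact (Nat.Prime 29) := ⟨by norm_num⟩
  exact caseI_of_sophieGermain (by norm_num) (by decide) h1 h2

theorem caseI_eleven : CaseI 11 := by
  obtain ⟨h1, h2⟩ := sg_hyp (p := 11) (q := 23) {0, 1, -1} (by decide) (by decide) (by decide)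
  have : Fact (Nat.Prime 23) := ⟨by norm_num⟩
  exact caseI_of_sophieGermain (by norm_num) (by decide) h1 h2

set_option maxRecDepth 100000 in
theorem caseI_thirteen : CaseI 13 := by
  obtain ⟨h1, h2⟩ := sg_hyp (p := 13) (q := 53) {0, 1, -1, 23, -23} (by decide) (by decide)
    (by decide)
  have : Fact (Nat.Prime 53) := ⟨by norm_num⟩
  exact caseI_of_sophieGermain (by norm_num) (by decide) h1 h2

end Fermat.Agent.Kummer
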