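import Mathlib

/-!
# Kummer's descent (second case of FLT) in an abstract principal ideal domain
-/

namespace Fermat.Agent.Kummer

open Polynomial Finset

/-- The data needed to run Kummer's descent in a ring `R` (meant to be `ℤ[ζ_p]`). -/
structure CycData (R : Type*) [CommRing R] (p : ℕ) (ζ : R) : Prop where
  prim : IsPrimitiveRoot ζ p
  prime_pi : Prime (ζ - 1)
  assoc : Associated ((ζ - 1) ^ (p - 1)) (p : R)
  residue : ∀ x : R, ∃ n : ℤ, (ζ - 1) ∣ x - (n : R)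
  kummer : ∀ u : Rˣ, (∃ n : ℤ, (p : R) ∣ (u : R) - (n : R)) → ∃ v : Rˣ, u = v ^ p

variable {R : Type*} [CommRing R] {p : ℕ} {ζ : R}

namespace CycData

lemma pi_dvd_p (D : CycData R p ζ) (hp : p.Prime) : (ζ - 1) ∣ (p : R) :=
  (dvd_pow_self _ (by have := hp.two_le; omega)).trans D.assoc.dvd

lemma p_dvd_pi_pow (D : CycData R p ζ) {k : ℕ} (hk : p - 1 ≤ k) : (p : R) ∣ (ζ - 1) ^ k :=
  D.assoc.symm.dvd.trans (pow_dvd_pow _ hk)

lemma pi_dvd_int_iff (D : CycData R p ζ) (hp : p.Prime) (n : ℤ) :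
    (ζ - 1) ∣ (n : R) ↔ (p : ℤ) ∣ n := by
  constructor
  · intro h
    by_contra hn
    have hcop : IsCoprime (p : ℤ) n :=
      (Prime.coprime_iff_not_dvd (Nat.prime_iff_prime_int.mp hp)).mpr hn
    obtain ⟨s, t, hst⟩ := hcop
    have h1 : (ζ - 1) ∣ (s : R) * p + t * n :=
      dvd_add (Dvd.dvd.mul_left (D.pi_dvd_p hp) _) (Dvd.dvd.mul_left h _)
    have h2 : (s : R) * p + t * n = 1 := by
      have := congrArg (Int.cast : ℤ → R) hst
      push_cast at this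
      exact this
    rw [h2] at h1
    exact D.prime_pi.not_isUnit (isUnit_of_dvd_one h1)
  · rintro ⟨k, rfl⟩
    push_cast
    exact Dvd.dvd.mul_right (D.pi_dvd_p hp) _

/-- Every `p`-th power is congruent to a rational integer modulo `p`. -/
lemma exists_int_pow (D : CycData R p ζ) (hp : p.Prime) (x : R) :
    ∃ n : ℤ, (p : R) ∣ x ^ p - (n : R) := by
  obtain ⟨n, w, hw⟩ := D.residue x
  have hx : x = (n : R) + (ζ - 1) * w := by linear_combination hw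
  obtain ⟨r, hr⟩ := exists_add_pow_prime_eq hp (n : R) ((ζ - 1) * w)
  obtain ⟨s, hs⟩ := D.p_dvd_pi_pow (k := p) (by omega)
  refine ⟨n ^ p, ?_⟩
  rw [hx, hr, mul_pow, hs]
  push_cast
  exact ⟨s * w ^ p + n * ((ζ - 1) * w) * r, by ring⟩

lemma pi_dvd_of_p_dvd_sub (D : CycData R p ζ) (hp : p.Prime) {x : R} {n : ℤ}
    (h : (p : R) ∣ x ^ p - (n : R)) (hn : (p : ℤ) ∣ n) : (ζ - 1) ∣ x := by
  have h1 : (ζ - 1) ∣ x ^ p - (n : R) := (D.pi_dvd_p hp).trans h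
  have h2 : (ζ - 1) ∣ (n : R) := (D.pi_dvd_int_iff hp n).mpr hn
  have h3 : (ζ - 1) ∣ x ^ p := by
    have := dvd_add h1 h2
    simpa using this
  exact D.prime_pi.dvd_of_dvd_pow h3

lemma pi_dvd_geom_sub (a : ℕ) : (ζ - 1) ∣ (∑ i ∈ range a, ζ ^ i) - (a : R) := by
  have : (∑ i ∈ range a, ζ ^ i) - (a : R) = ∑ i ∈ range a, (ζ ^ i - 1) := by
    simp [Finset.sum_sub_distrib]
  rw [this]
  refine Finset.dvd_sum fun i _ ↦ ?_
  simpa using sub_dvd_pow_sub_pow ζ 1 i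

/-- `π ∣ x + y` for a solution. -/
lemma pi_dvd_add (D : CycData R p ζ) (hp : p.Prime) {x y : R}
    (h : (ζ - 1) ∣ x ^ p + y ^ p) : (ζ - 1) ∣ x + y := by
  obtain ⟨r, hr⟩ := exists_add_pow_prime_eq hp x y
  apply D.prime_pi.dvd_of_dvd_pow (n := p)
  rw [hr]
  refine dvd_add h ?_
  simp only [mul_assoc]
  exact Dvd.dvd.mul_right (D.pi_dvd_p hp) _

/-- Some twist `x + ζ ^ a * y` is divisible by `π ^ 2`. -/
lemma exists_sq_dvd (D : CycData R p ζ) (hp : p.Prime) {x y : R} (hy : ¬ (ζ - 1) ∣ y)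
    (h : (ζ - 1) ∣ x + y) : ∃ a : ℕ, (ζ - 1) ^ 2 ∣ x + ζ ^ a * y := by
  obtain ⟨w, hw⟩ := h
  obtain ⟨nw, hnw⟩ := D.residue w
  obtain ⟨ny, hny⟩ := D.residue y
  have hpy : ¬ (p : ℤ) ∣ ny := by
    intro hd
    apply hy
    have := dvd_add hny ((D.pi_dvd_int_iff hp ny).mpr hd)
    simpa using this
  have : Fact p.Prime := ⟨hp⟩
  have hny0 : (ny : ZMod p) ≠ 0 := by
    rwa [Ne, ZMod.intCast_zmod_eq_zero_iff_dvd]
  set a : ℕ := (-(nw : ZMod p) / (ny : ZMod p)).val with ha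
  have hcong : (p : ℤ) ∣ nw + a * ny := by
    rw [← ZMod.intCast_zmod_eq_zero_iff_dvd]
    push_cast
    rw [ha, ZMod.natCast_zmod_val]
    field_simp
    ring
  refine ⟨a, ?_⟩
  have hgeom : ζ ^ a - 1 = (ζ - 1) * ∑ i ∈ range a, ζ ^ i := (mul_geom_sum ζ a).symm
  have hexp : x + ζ ^ a * y = (ζ - 1) * (w + (∑ i ∈ range a, ζ ^ i) * y) := by
    linear_combination hw + y * hgeom
  rw [hexp, pow_two]
  apply mul_dvd_mul_left
  have h1 := (D.pi_dvd_int_iff hp _).mpr hcong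
  push_cast at h1
  obtain ⟨g, hg⟩ := pi_dvd_geom_sub (ζ := ζ) a
  obtain ⟨c1, hc1⟩ := hnw
  obtain ⟨c2, hc2⟩ := hny
  obtain ⟨c3, hc3⟩ := h1
  refine ⟨c1 + g * y + a * c2 + c3, ?_⟩
  linear_combination hc1 + y * hg + (a : R) * hc2 + hc3

variable [IsDomain R] [IsPrincipalIdealRing R]

/-- The core of the descent, assuming `π ^ 2 ∣ x + y`. -/
lemma descent_core (D : CycData R p ζ) (hp : p.Prime) (hodd : p ≠ 2)
    {m : ℕ} {x y z : R} {ε : Rˣ} (hy : ¬ (ζ - 1) ∣ y) (hz : ¬ (ζ - 1) ∣ z) (hxy : IsCoprime x y)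
    (hsq : (ζ - 1) ^ 2 ∣ x + y)
    (h : x ^ p + y ^ p = ε * ((ζ - 1) ^ (m + 1) * z) ^ p) :
    ∃ (m' : ℕ) (x' y' z' : R) (ε' : Rˣ), m = m' + 1 ∧ ¬ (ζ - 1) ∣ y' ∧ ¬ (ζ - 1) ∣ z' ∧
      IsCoprime x' y' ∧ x' ^ p + y' ^ p = ε' * ((ζ - 1) ^ (m' + 1) * z') ^ p := by
  classical
  set π := ζ - 1 with hπ
  have hπp : Prime π := D.prime_pi
  have hπ0 : π ≠ 0 := hπp.ne_zero
  set μ := nthRootsFinset p (1 : R) with hμ
  have h1μ : (1 : R) ∈ μ := by simp [hμ, mem_nthRootsFinset hp.pos]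
  have hcard : μ.card = p := D.prim.card_nthRootsFinset
  have hc : ∀ η ∈ μ.erase 1, ∃ c, x + η * y = π * c ∧ ¬ π ∣ c := by
    intro η hη
    obtain ⟨hη1, hημ⟩ := Finset.mem_erase.mp hη
    obtain ⟨u, hu⟩ :=
      D.prim.nthRootsFinset_pairwise_associated_sub_one_sub_of_prime hp hημ h1μ hη1
    obtain ⟨w, hw⟩ := hsq
    refine ⟨π * w + u * y, by linear_combination hw - y * hu, ?_⟩
    intro hd
    have h2 : π ∣ u * y := (dvd_add_right (dvd_mul_right _ _)).mp hd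
    exact hy ((hπp.dvd_or_dvd h2).resolve_left
      (fun h => hπp.not_isUnit (isUnit_of_dvd_unit h u.isUnit)))
  choose! c hc1 hc2 using hc
  set C := ∏ η ∈ μ.erase 1, c η with hCdef
  have hprod : x ^ p + y ^ p = (x + y) * (π ^ (p - 1) * C) := by
    rw [D.prim.pow_add_pow_eq_prod_add_mul x y (hp.odd_of_ne_two hodd),
      ← Finset.mul_prod_erase μ _ h1μ, one_mul]
    congr 1
    rw [Finset.prod_congr rfl hc1, Finset.prod_mul_distrib, Finset.prod_const,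
      Finset.card_erase_of_mem h1μ, hcard]
  have hC : ¬ π ∣ C := by
    intro hd
    obtain ⟨η, hη, hd'⟩ := hπp.exists_mem_finset_dvd hd
    exact hc2 η hη hd'
  have hkey : (x + y) * C = ε * π ^ (p * m + 1) * z ^ p := by
    have e : (π ^ (m + 1)) ^ p = π ^ (p - 1) * π ^ (p * m + 1) := by
      rw [← pow_mul, ← pow_add]
      congr 1
      obtain ⟨k, rfl⟩ : ∃ k, p = k + 1 := ⟨p - 1, (Nat.sub_add_cancel hp.one_le).symm⟩
      simp only [Nat.add_sub_cancel]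
      ring
    have h3 : π ^ (p - 1) * ((x + y) * C) = π ^ (p - 1) * (ε * π ^ (p * m + 1) * z ^ p) := by
      calc π ^ (p - 1) * ((x + y) * C) = x ^ p + y ^ p := by rw [hprod]; ring
        _ = π ^ (p - 1) * (ε * π ^ (p * m + 1) * z ^ p) := by rw [h, mul_pow, e]; ring
    exact mul_left_cancel₀ (pow_ne_zero _ hπ0) h3
  obtain ⟨c₁, hc₁⟩ : π ^ (p * m + 1) ∣ x + y :=
    hπp.pow_dvd_of_dvd_mul_right _ hC (hkey ▸ ⟨ε * z ^ p, by ring⟩)
  have hc₁C : c₁ * C = ε * z ^ p := by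
    apply mul_left_cancel₀ (pow_ne_zero (p * m + 1) hπ0)
    rw [← mul_assoc, ← hc₁, hkey]
    ring
  have hπc₁ : ¬ π ∣ c₁ := by
    intro hd
    have h4 : π ∣ ε * z ^ p := hc₁C ▸ Dvd.dvd.mul_right hd _
    rcases hπp.dvd_or_dvd h4 with h' | h'
    · exact hπp.not_isUnit (isUnit_of_dvd_unit h' ε.isUnit)
    · exact hz (hπp.dvd_of_dvd_pow h')
  obtain ⟨m', rfl⟩ : ∃ m', m = m' + 1 := by
    rcases m with _ | m'
    · exfalso
      simp only [mul_zero, zero_add, pow_one] at hc₁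
      obtain ⟨w, hw⟩ := hsq
      apply hπc₁
      refine ⟨w, mul_left_cancel₀ hπ0 ?_⟩
      rw [← hc₁, hw]
      ring
    · exact ⟨m', rfl⟩
  set d : R → R := fun η => if η = 1 then c₁ else c η with hd
  have hd1 : d 1 = c₁ := by simp [hd]
  have hdne : ∀ η ∈ μ.erase 1, d η = c η := fun η hη => by
    simp [hd, (Finset.mem_erase.mp hη).1]
  have hd_dvd : ∀ η ∈ μ, d η ∣ x + η * y := by
    intro η hη
    by_cases h1 : η = 1
    · subst h1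
      rw [hd1, one_mul, hc₁]
      exact dvd_mul_left _ _
    · rw [hdne η (Finset.mem_erase.mpr ⟨h1, hη⟩), hc1 η (Finset.mem_erase.mpr ⟨h1, hη⟩)]
      exact dvd_mul_left _ _
  have hd_pi : ∀ η ∈ μ, ¬ π ∣ d η := by
    intro η hη
    by_cases h1 : η = 1
    · subst h1
      rwa [hd1]
    · rw [hdne η (Finset.mem_erase.mpr ⟨h1, hη⟩)]
      exact hc2 η (Finset.mem_erase.mpr ⟨h1, hη⟩)
  have hd_prod : ∏ η ∈ μ, d η = ε * z ^ p := by
    rw [← Finset.mul_prod_erase μ _ h1μ, hd1, Finset.prod_congr rfl hdne, hc₁C]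
  have hcop : ∀ η₁ ∈ μ, ∀ η₂ ∈ μ, η₁ ≠ η₂ → IsCoprime (d η₁) (d η₂) := by
    intro η₁ h₁ η₂ h₂ hne
    apply isCoprime_of_prime_dvd
    · rintro ⟨h0, -⟩
      exact hd_pi η₁ h₁ (h0 ▸ dvd_zero _)
    intro q hq hq1 hq2
    have hq1' := hq1.trans (hd_dvd η₁ h₁)
    have hq2' := hq2.trans (hd_dvd η₂ h₂)
    obtain ⟨u, hu⟩ :=
      D.prim.nthRootsFinset_pairwise_associated_sub_one_sub_of_prime hp h₁ h₂ hne
    have hqy : q ∣ π * y := by
      have h5 : q ∣ (x + η₁ * y) - (x + η₂ * y) := dvd_sub hq1' hq2'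
      have e : (x + η₁ * y) - (x + η₂ * y) = u * (π * y) := by linear_combination -y * hu
      rw [e] at h5
      exact (hq.dvd_or_dvd h5).resolve_left
        (fun h => hq.not_isUnit (isUnit_of_dvd_unit h u.isUnit))
    have hqx : q ∣ π * x := by
      have h5 : q ∣ η₁ * (x + η₂ * y) - η₂ * (x + η₁ * y) :=
        dvd_sub (Dvd.dvd.mul_left hq2' _) (Dvd.dvd.mul_left hq1' _)
      have e : η₁ * (x + η₂ * y) - η₂ * (x + η₁ * y) = u * (π * x) := by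
        linear_combination -x * hu
      rw [e] at h5
      exact (hq.dvd_or_dvd h5).resolve_left
        (fun h => hq.not_isUnit (isUnit_of_dvd_unit h u.isUnit))
    have hqπ : ¬ q ∣ π := by
      intro hqπ
      exact hd_pi η₁ h₁ ((hq.associated_of_dvd hπp hqπ).symm.dvd.trans hq1)
    exact hq.not_isUnit (hxy.isUnit_of_dvd' ((hq.dvd_or_dvd hqx).resolve_left hqπ)
      ((hq.dvd_or_dvd hqy).resolve_left hqπ))
  have hpow : ∀ η ∈ μ, ∃ ρ, Associated (ρ ^ p) (d η) := by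
    intro η hη
    apply exists_associated_pow_of_associated_pow_mul (b := ∏ η' ∈ μ.erase η, d η') (c := z)
    · exact IsCoprime.prod_right fun η' hη' =>
        hcop η hη η' (Finset.mem_of_mem_erase hη') (Finset.ne_of_mem_erase hη').symm
    · rw [Finset.mul_prod_erase μ _ hη, hd_prod]
      exact ⟨ε, by ring⟩
  have hζμ : ζ ∈ μ := D.prim.mem_nthRootsFinset hp.pos
  set ζ' := ζ ^ (p - 1) with hζ'
  have hζζ' : ζ * ζ' = 1 := by
    rw [hζ', ← pow_succ', Nat.sub_add_cancel hp.one_le, D.prim.pow_eq_one]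
  have hζ'μ : ζ' ∈ μ := by
    rw [hμ, mem_nthRootsFinset hp.pos, hζ', ← pow_mul, mul_comm, pow_mul, D.prim.pow_eq_one,
      one_pow]
  have hζ1 : ζ ≠ 1 := D.prim.ne_one hp.one_lt
  have hζ'1 : ζ' ≠ 1 := by
    intro h6
    apply hζ1
    rw [h6, mul_one] at hζζ'
    exact hζζ'
  have hζζ'ne : ζ ≠ ζ' := by
    intro h6
    rw [← h6, ← pow_two] at hζζ'
    have h7 := Nat.le_of_dvd (by norm_num) (D.prim.dvd_of_pow_eq_one 2 hζζ')
    have h8 := hp.two_le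
    omega
  have e1 : x + ζ * y = π * d ζ := by
    rw [hdne ζ (Finset.mem_erase.mpr ⟨hζ1, hζμ⟩), hc1 ζ (Finset.mem_erase.mpr ⟨hζ1, hζμ⟩)]
  have e2 : x + ζ' * y = π * d ζ' := by
    rw [hdne ζ' (Finset.mem_erase.mpr ⟨hζ'1, hζ'μ⟩), hc1 ζ' (Finset.mem_erase.mpr ⟨hζ'1, hζ'μ⟩)]
  have hrel : d ζ + ζ * d ζ' = (1 + ζ) * π ^ (p * (m' + 1)) * c₁ := by
    apply mul_left_cancel₀ hπ0
    have e3 : x + y = π * π ^ (p * (m' + 1)) * c₁ := by rw [hc₁, pow_succ']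
    linear_combination -e1 - ζ * e2 + (1 + ζ) * e3 + y * hζζ'
  obtain ⟨ρ₁, u₁, h₁⟩ := hpow ζ hζμ
  obtain ⟨ρ₂, u₂, h₂⟩ := hpow ζ' hζ'μ
  obtain ⟨ρ₃, u₃, h₃⟩ := hpow 1 h1μ
  rw [hd1] at h₃
  have hπρ₂ : ¬ π ∣ ρ₂ := by
    intro hd'
    apply hd_pi ζ' hζ'μ
    rw [← h₂]
    exact Dvd.dvd.mul_right (dvd_pow hd' hp.ne_zero) _
  have hπρ₃ : ¬ π ∣ ρ₃ := by
    intro hd'
    apply hπc₁
    rw [← h₃]
    exact Dvd.dvd.mul_right (dvd_pow hd' hp.ne_zero) _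
  have hcopρ : IsCoprime ρ₁ ρ₂ := by
    have h9 := hcop ζ hζμ ζ' hζ'μ hζζ'ne
    rw [← h₁, ← h₂] at h9
    exact (IsCoprime.pow_iff hp.pos hp.pos).mp h9.of_mul_left_left.of_mul_right_left
  obtain ⟨ζu, hζu⟩ : ∃ u : Rˣ, (u : R) = ζ := ⟨(D.prim.isUnit hp.ne_zero).unit, rfl⟩
  obtain ⟨τ, hτ⟩ : ∃ u : Rˣ, (u : R) = 1 + ζ := by
    have h10 := D.prim.geom_sum_isUnit hp.two_le (j := 2)
      ((Nat.coprime_primes Nat.prime_two hp).mpr (Ne.symm hodd))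
    simp only [Finset.sum_range_succ, Finset.sum_range_zero, pow_zero, pow_one, zero_add] at h10
    exact ⟨h10.unit, rfl⟩
  set η' : Rˣ := ζu * u₂ * u₁⁻¹ with hη'
  set ε' : Rˣ := τ * u₃ * u₁⁻¹ with hε'
  have hrel' : ρ₁ ^ p + η' * ρ₂ ^ p = ε' * (π ^ (m' + 1) * ρ₃) ^ p := by
    have hu : (u₁ : R) * ((u₁⁻¹ : Rˣ) : R) = 1 := by simp
    rw [← h₁, ← h₂, ← h₃] at hrel
    simp only [hη', hε', Units.val_mul, hζu, hτ, mul_pow, ← pow_mul]
    linear_combination ((u₁⁻¹ : Rˣ) : R) * hrel - ρ₁ ^ p * hu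
  have hK : ∃ n : ℤ, (p : R) ∣ (η' : R) - (n : R) := by
    obtain ⟨n₁, a₁, ha₁⟩ := D.exists_int_pow hp ρ₁
    obtain ⟨n₂, hn₂⟩ := D.exists_int_pow hp ρ₂
    have hpn₂ : ¬ (p : ℤ) ∣ n₂ := fun hd' => hπρ₂ (D.pi_dvd_of_p_dvd_sub hp hn₂ hd')
    obtain ⟨a₂, ha₂⟩ := hn₂
    obtain ⟨s, t, hst⟩ : IsCoprime (p : ℤ) n₂ :=
      (Prime.coprime_iff_not_dvd (Nat.prime_iff_prime_int.mp hp)).mpr hpn₂
    have hst' : (s : R) * p + t * n₂ = 1 := by
      have := congrArg (Int.cast : ℤ → R) hst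
      push_cast at this
      exact this
    obtain ⟨a₃, ha₃⟩ : (p : R) ∣ (π ^ (m' + 1) * ρ₃) ^ p := by
      rw [mul_pow, ← pow_mul]
      refine Dvd.dvd.mul_right (D.p_dvd_pi_pow ?_) _
      calc p - 1 ≤ p := Nat.sub_le _ _
        _ ≤ (m' + 1) * p := Nat.le_mul_of_pos_left _ (Nat.succ_pos _)
    refine ⟨-n₁ * t, η' * s + t * (ε' * a₃ - η' * a₂ - a₁), ?_⟩
    push_cast
    linear_combination (-(η' : R)) * hst' + t * hrel' + t * ε' * ha₃ - t * ha₁ - t * η' * ha₂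
  obtain ⟨v, hv⟩ := D.kummer η' hK
  refine ⟨m', ρ₁, v * ρ₂, ρ₃, ε', rfl, ?_, hπρ₃, ?_, ?_⟩
  · intro hd'
    exact hπρ₂ ((hπp.dvd_or_dvd hd').resolve_left
      (fun h => hπp.not_isUnit (isUnit_of_dvd_unit h v.isUnit)))
  · exact (isCoprime_mul_unit_left_right v.isUnit _ _).mpr hcopρ
  · rw [mul_pow, ← Units.val_pow_eq_pow_val, ← hv]
    exact hrel'

/-- One step of the descent. -/
lemma descent_step (D : CycData R p ζ) (hp : p.Prime) (hodd : p ≠ 2)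
    {m : ℕ} {x y z : R} {ε : Rˣ} (hy : ¬ (ζ - 1) ∣ y) (hz : ¬ (ζ - 1) ∣ z) (hxy : IsCoprime x y)
    (h : x ^ p + y ^ p = ε * ((ζ - 1) ^ (m + 1) * z) ^ p) :
    ∃ (m' : ℕ) (x' y' z' : R) (ε' : Rˣ), m = m' + 1 ∧ ¬ (ζ - 1) ∣ y' ∧ ¬ (ζ - 1) ∣ z' ∧
      IsCoprime x' y' ∧ x' ^ p + y' ^ p = ε' * ((ζ - 1) ^ (m' + 1) * z') ^ p := by
  have hdiv : (ζ - 1) ∣ x ^ p + y ^ p := by
    rw [h, mul_pow, ← pow_mul]
    exact Dvd.dvd.mul_left (Dvd.dvd.mul_right (dvd_pow_self _ (by simp [hp.ne_zero])) _) _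
  obtain ⟨a, ha⟩ := D.exists_sq_dvd hp hy (D.pi_dvd_add hp hdiv)
  have hu : IsUnit (ζ ^ a) := (D.prim.isUnit hp.ne_zero).pow a
  have hy' : ¬ (ζ - 1) ∣ ζ ^ a * y := fun hd =>
    hy ((D.prime_pi.dvd_or_dvd hd).resolve_left
      (fun h => D.prime_pi.not_isUnit (isUnit_of_dvd_unit h hu)))
  have h' : x ^ p + (ζ ^ a * y) ^ p = ε * ((ζ - 1) ^ (m + 1) * z) ^ p := by
    rw [mul_pow, ← pow_mul, mul_comm a p, pow_mul, D.prim.pow_eq_one, one_pow, one_mul, h]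
  exact D.descent_core hp hodd hy' hz ((isCoprime_mul_unit_left_right hu _ _).mpr hxy) ha h'

/-- Kummer's descent: the second case equation has no solution. -/
theorem no_solution (D : CycData R p ζ) (hp : p.Prime) (hodd : p ≠ 2) :
    ∀ (m : ℕ) (x y z : R) (ε : Rˣ), ¬ (ζ - 1) ∣ y → ¬ (ζ - 1) ∣ z → IsCoprime x y →
      x ^ p + y ^ p ≠ ε * ((ζ - 1) ^ (m + 1) * z) ^ p := by
  intro m
  induction m with
  | zero =>
    intro x y z ε hy hz hxy h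
    obtain ⟨m', _, _, _, _, hm, _⟩ := D.descent_step hp hodd hy hz hxy h
    omega
  | succ m ih =>
    intro x y z ε hy hz hxy h
    obtain ⟨m', x', y', z', ε', hm, hy'', hz'', hxy'', h''⟩ := D.descent_step hp hodd hy hz hxy h
    obtain rfl : m' = m := by omega
    exact ih x' y' z' ε' hy'' hz'' hxy'' h''

end CycData

end Fermat.Agent.Kummer
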