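import Mathlib
import Fermat.Agent.Kummer.Defs
import Fermat.Agent.Kummer.Descent

/-!
# FLT for a prime `p` from: case I, principality of `ℤ[ζ_p]`, and Kummer's lemma
-/

namespace Fermat.Agent.Kummer

open NumberField

section abstract

variable {R : Type*} [CommRing R] [IsDomain R] [IsPrincipalIdealRing R] {p : ℕ} {ζ : R}

/-- The second case over `ℤ`, when `p ∣ c`. -/
theorem CycData.caseII_int (D : CycData R p ζ) (hp : p.Prime) (hodd : p ≠ 2)
    (a b c : ℤ) (hab : IsCoprime a b) (hc0 : c ≠ 0) (hpc : (p : ℤ) ∣ c) :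
    a ^ p + b ^ p ≠ c ^ p := by
  intro h
  have hpZ : Prime (p : ℤ) := Nat.prime_iff_prime_int.mp hp
  have hpb : ¬ (p : ℤ) ∣ b := by
    intro hb
    have ha : (p : ℤ) ∣ a ^ p := by
      have e : a ^ p = c ^ p - b ^ p := by linear_combination h
      rw [e]
      exact dvd_sub (dvd_pow hpc hp.ne_zero) (dvd_pow hb hp.ne_zero)
    exact hpZ.not_isUnit (hab.isUnit_of_dvd' (hpZ.dvd_of_dvd_pow ha) hb)
  have hfin : FiniteMultiplicity (p : ℤ) c := by
    rw [Int.finiteMultiplicity_iff]
    exact ⟨by simpa using hp.ne_one, hc0⟩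
  obtain ⟨c', hc', hpc'⟩ := hfin.exists_eq_pow_mul_and_not_dvd
  set k := multiplicity (p : ℤ) c with hk
  have hk0 : k ≠ 0 := by
    intro h0
    rw [h0, pow_zero, one_mul] at hc'
    exact hpc' (hc' ▸ hpc)
  obtain ⟨u, hu⟩ := D.assoc
  obtain ⟨m, hm⟩ : ∃ m, (p - 1) * k = m + 1 := by
    have h1 : 0 < (p - 1) * k :=
      Nat.mul_pos (by have := hp.two_le; omega) (Nat.pos_of_ne_zero hk0)
    exact ⟨(p - 1) * k - 1, by omega⟩
  apply D.no_solution hp hodd m (a : R) (b : R) (c' : R) ((u ^ k) ^ p)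
  · rwa [D.pi_dvd_int_iff hp]
  · rwa [D.pi_dvd_int_iff hp]
  · exact hab.map (Int.castRingHom R)
  · have h' := congrArg (Int.cast : ℤ → R) h
    push_cast at h'
    rw [h', ← hm, hc']
    push_cast
    rw [← hu]
    ring

/-- FLT for coprime integers from the abstract data. -/
theorem CycData.flt_coprime (D : CycData R p ζ) (hp : p.Prime) (hodd : p ≠ 2) (h1 : CaseI p)
    (a b c : ℤ) (hab : IsCoprime a b) (ha0 : a ≠ 0) (hb0 : b ≠ 0) (hc0 : c ≠ 0) :
    a ^ p + b ^ p ≠ c ^ p := by
  intro h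
  have hpZ : Prime (p : ℤ) := Nat.prime_iff_prime_int.mp hp
  have hoddp : Odd p := hp.odd_of_ne_two hodd
  by_cases hd : (p : ℤ) ∣ a * b * c
  · rcases hpZ.dvd_or_dvd hd with hd | hd
    · rcases hpZ.dvd_or_dvd hd with hd | hd
      · -- `p ∣ a` : `c ^ p + (-b) ^ p = a ^ p`
        refine D.caseII_int hp hodd c (-b) a ?_ ha0 hd ?_
        · have h2 : IsCoprime (c ^ p) b := by
            rw [← h]
            have : IsCoprime (a ^ p) b := hab.pow_left
            obtain ⟨k, rfl⟩ : ∃ k, p = k + 1 := ⟨p - 1, (Nat.sub_add_cancel hp.one_le).symm⟩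
            rw [pow_succ b k]
            exact this.add_mul_right_left _
          exact ((IsCoprime.pow_left_iff hp.pos).mp h2).neg_right
        · rw [hoddp.neg_pow]
          linear_combination -h
      · refine D.caseII_int hp hodd c (-a) b ?_ hb0 hd ?_
        · have h2 : IsCoprime (c ^ p) a := by
            rw [← h, add_comm]
            have : IsCoprime (b ^ p) a := hab.symm.pow_left
            obtain ⟨k, rfl⟩ : ∃ k, p = k + 1 := ⟨p - 1, (Nat.sub_add_cancel hp.one_le).symm⟩
            rw [pow_succ a k]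
            exact this.add_mul_right_left _
          exact ((IsCoprime.pow_left_iff hp.pos).mp h2).neg_right
        · rw [hoddp.neg_pow]
          linear_combination -h
    · exact D.caseII_int hp hodd a b c hab hc0 hd h
  · exact h1 a b c hd h

end abstract

section cyclotomic

variable (p : ℕ) [hp : Fact p.Prime] (K : Type*) [Field K] [NumberField K]
  [IsCyclotomicExtension {p} ℚ K]

theorem cycData_of_kummerLemma (hK : KummerLemma p K) :
    CycData (𝓞 K) p (IsCyclotomicExtension.zeta_spec p ℚ K).toInteger := by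
  set hζ := IsCyclotomicExtension.zeta_spec p ℚ K with hζdef
  refine ⟨hζ.toInteger_isPrimitiveRoot, hζ.zeta_sub_one_prime',
    IsCyclotomicExtension.Rat.associated_zeta_sub_one_pow_prime p hζ, ?_, hK⟩
  intro x
  have hx : x ∈ Algebra.adjoin ℤ {hζ.toInteger} := by
    rw [IsCyclotomicExtension.Rat.adjoin_singleton_eq_top hζ]
    trivial
  induction hx using Algebra.adjoin_induction with
  | mem x hx =>
    rw [Set.mem_singleton_iff] at hx
    subst hx
    exact ⟨1, by simp⟩
  | algebraMap r => exact ⟨r, by simp⟩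
  | add x y _ _ hx hy =>
    obtain ⟨n, hn⟩ := hx
    obtain ⟨m, hm⟩ := hy
    refine ⟨n + m, ?_⟩
    have := dvd_add hn hm
    push_cast
    convert this using 1
    ring
  | mul x y _ _ hx hy =>
    obtain ⟨n, a, hn⟩ := hx
    obtain ⟨m, b, hm⟩ := hy
    refine ⟨n * m, a * y + n * b, ?_⟩
    push_cast
    linear_combination y * hn + (n : 𝓞 K) * hm

/-- FLT (for coprime integers) for the prime `p` from: case I, `𝓞 K` is a PID, Kummer's lemma. -/
theorem flt_coprime_of_data (hodd : p ≠ 2) (h1 : CaseI p) (h2 : IsPrincipalIdealRing (𝓞 K))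
    (h3 : KummerLemma p K) (a b c : ℤ) (hab : IsCoprime a b) (ha0 : a ≠ 0) (hb0 : b ≠ 0)
    (hc0 : c ≠ 0) : a ^ p + b ^ p ≠ c ^ p :=
  (cycData_of_kummerLemma p K h3).flt_coprime hp.out hodd h1 a b c hab ha0 hb0 hc0

end cyclotomic

end Fermat.Agent.Kummer
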