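import Fermat.Agent.Kummer.Defs
import Mathlib

set_option autoImplicit false

open NumberField Polynomial

namespace Fermat.Agent.Kummer

/-- ring hom out of the ring of integers of a cyclotomic field -/
theorem kl_exists_hom {n : ℕ} [NeZero n] {K : Type*} [Field K] [NumberField K]
    [IsCyclotomicExtension {n} ℚ K] {ζ : K} (hζ : IsPrimitiveRoot ζ n)
    {B : Type*} [CommRing B] (b : B) (hb : aeval b (cyclotomic n ℤ) = 0) :
    ∃ ψ : 𝓞 K →+* B, ψ hζ.toInteger = b := by
  have hmin : minpoly ℤ hζ.integralPowerBasis.gen = cyclotomic n ℤ := by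
    rw [hζ.integralPowerBasis_gen, cyclotomic_eq_minpoly hζ (NeZero.pos n)]
    exact (minpoly.algebraMap_eq (RingOfIntegers.coe_injective) hζ.toInteger).symm
  have hb' : aeval b (minpoly ℤ hζ.integralPowerBasis.gen) = 0 := by rw [hmin]; exact hb
  refine ⟨(hζ.integralPowerBasis.lift b hb').toRingHom, ?_⟩
  have := hζ.integralPowerBasis.lift_gen b hb'
  rw [← hζ.integralPowerBasis_gen]
  exact this

/-- the truncated polynomial ring -/
abbrev KLA (p : ℕ) : Type := (ZMod p)[X] ⧸ Ideal.span {(X : (ZMod p)[X]) ^ (p - 2)}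

/-- the class of `X` -/
noncomputable def klt (p : ℕ) : KLA p := Ideal.Quotient.mk _ X

theorem klt_pow (p : ℕ) : klt p ^ (p - 2) = 0 := by
  rw [klt, ← map_pow, Ideal.Quotient.eq_zero_iff_mem]
  exact Ideal.subset_span rfl

theorem kla_char (p : ℕ) : (p : KLA p) = 0 := by
  have : (p : KLA p) = algebraMap (ZMod p) (KLA p) (p : ZMod p) :=
    (map_natCast (algebraMap (ZMod p) (KLA p)) p).symm
  rw [this, ZMod.natCast_self, map_zero]

/-- the point of the dual numbers to which `ζ` is sent -/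
noncomputable def klb (p : ℕ) : DualNumber (KLA p) :=
  TrivSqZeroExt.inl (1 + klt p) + TrivSqZeroExt.inr 1

theorem klb_cyclotomic (p : ℕ) [Fact p.Prime] (hp : 2 ≤ p - 2) :
    aeval (klb p) (cyclotomic p ℤ) = 0 := by
  have h1 : aeval (klb p) (cyclotomic p ℤ) = aeval (klb p) (cyclotomic p (ZMod p)) := by
    rw [← map_cyclotomic_int p (ZMod p), ← algebraMap_int_eq, aeval_map_algebraMap]
  have h2 : cyclotomic p (ZMod p) = (X - 1) ^ (p - 1) := by
    have := cyclotomic_mul_prime_eq_pow_of_not_dvd (ZMod p) (p := p) (n := 1) (by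
      intro h; exact (Fact.out : p.Prime).one_lt.ne' (Nat.dvd_one.mp h))
    rwa [one_mul, cyclotomic_one] at this
  rw [h1, h2, map_pow, map_sub, aeval_X, map_one]
  have h3 : klb p - 1 = TrivSqZeroExt.inl (klt p) + TrivSqZeroExt.inr 1 := by
    rw [klb, TrivSqZeroExt.inl_add, TrivSqZeroExt.inl_one]; ring
  rw [h3]
  ext
  · simp only [TrivSqZeroExt.fst_pow, TrivSqZeroExt.fst_add, TrivSqZeroExt.fst_inl, TrivSqZeroExt.fst_inr, add_zero, TrivSqZeroExt.fst_zero]
    have : p - 1 = (p - 2) + 1 := by omega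
    rw [this, pow_succ, klt_pow, zero_mul]
  · rw [TrivSqZeroExt.snd_pow]
    simp only [TrivSqZeroExt.fst_add, TrivSqZeroExt.fst_inl, TrivSqZeroExt.fst_inr, add_zero, TrivSqZeroExt.snd_zero]
    have : (p - 1).pred = p - 2 := by simp; omega
    rw [this, klt_pow]
    simp

/-- linear algebra / group theory core of the argument -/
theorem kl_exists_pow_of_theta_eq_zero {p : ℕ} [Fact p.Prime] {G V ι κ : Type*} [CommGroup G]
    [AddCommGroup V] [Module (ZMod p) V] [Fintype ι] [Fintype κ]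
    (hcard : Fintype.card ι ≤ Fintype.card κ)
    (θ : G → V) (hmul : ∀ u v, θ (u * v) = θ u + θ v)
    (g : ι → G) (hgen : ∀ u, ∃ n : ι → ℤ, u = ∏ i, g i ^ n i)
    (w : κ → G) (hw : LinearIndependent (ZMod p) (fun k => θ (w k)))
    (u : G) (hu : θ u = 0) : ∃ v, u = v ^ p := by
  classical
  let Θ : Additive G →+ V := AddMonoidHom.mk' (fun x => θ x.toMul) (fun a b => hmul _ _)
  have hΘ : ∀ n : ι → ℤ, θ (∏ i, g i ^ n i) = ∑ i, (n i : ZMod p) • θ (g i) := by
    intro n
    have h1 : θ (∏ i, g i ^ n i) = Θ (Additive.ofMul (∏ i, g i ^ n i)) := rfl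
    rw [h1, ofMul_prod, map_sum]
    refine Finset.sum_congr rfl fun i _ => ?_
    rw [ofMul_zpow, map_zsmul, Int.cast_smul_eq_zsmul]
    rfl
  set S : Submodule (ZMod p) V := Submodule.span (ZMod p) (Set.range (fun i => θ (g i))) with hS
  have hwS : ∀ k, θ (w k) ∈ S := by
    intro k
    obtain ⟨n, hn⟩ := hgen (w k)
    rw [hn, hΘ]
    exact Submodule.sum_mem _ fun i _ => Submodule.smul_mem _ _ (Submodule.subset_span ⟨i, rfl⟩)
  have hfin : FiniteDimensional (ZMod p) S := FiniteDimensional.span_of_finite _ (Set.finite_range _)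
  have hw' : LinearIndependent (ZMod p) (fun k => (⟨θ (w k), hwS k⟩ : S)) := by
    apply LinearIndependent.of_comp S.subtype
    exact hw
  have h1 : Fintype.card κ ≤ Module.finrank (ZMod p) S := hw'.fintype_card_le_finrank
  have h2 : Module.finrank (ZMod p) S ≤ Fintype.card ι := finrank_range_le_card _
  have h3 : LinearIndependent (ZMod p) (fun i => θ (g i)) :=
    linearIndependent_iff_card_eq_finrank_span.mpr (by
      show Fintype.card ι = Module.finrank (ZMod p) S
      omega)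
  obtain ⟨n, hn⟩ := hgen u
  rw [hn, hΘ] at hu
  have h4 := Fintype.linearIndependent_iff.mp h3 _ hu
  have h5 : ∀ i, ∃ m : ℤ, n i = p * m := fun i =>
    (ZMod.intCast_zmod_eq_zero_iff_dvd (n i) p).mp (h4 i)
  choose m hm using h5
  refine ⟨∏ i, g i ^ m i, ?_⟩
  rw [hn, ← Finset.prod_pow]
  refine Finset.prod_congr rfl fun i _ => ?_
  rw [hm i, mul_comm, zpow_mul, zpow_natCast]

/-- the unit group is generated by `rank + 1` elements -/
theorem kl_units_gen (K : Type*) [Field K] [NumberField K] :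
    ∃ g : Option (Fin (Units.rank K)) → (𝓞 K)ˣ,
      ∀ u, ∃ n : Option (Fin (Units.rank K)) → ℤ, u = ∏ i, g i ^ n i := by
  obtain ⟨τ, hτ⟩ := IsCyclic.exists_generator (α := Units.torsion K)
  refine ⟨fun i => i.elim (τ : (𝓞 K)ˣ) (Units.fundSystem K), fun u => ?_⟩
  obtain ⟨⟨z, e⟩, hu, -⟩ := Units.exist_unique_eq_mul_prod K u
  obtain ⟨k, hk⟩ := Subgroup.mem_zpowers_iff.mp (hτ z)
  refine ⟨fun i => i.elim k e, ?_⟩
  rw [Fintype.prod_option]
  simp only [Option.elim]
  rw [hu]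
  congr 1
  rw [← hk]
  simp

theorem kl_rank (p : ℕ) [Fact p.Prime] (hp : 2 < p) (K : Type*) [Field K] [NumberField K]
    [IsCyclotomicExtension {p} ℚ K] : Units.rank K + 1 = (p - 1) / 2 := by
  have h1 : Fintype.card (InfinitePlace K) = (p - 1) / 2 := by
    rw [InfinitePlace.card_eq_nrRealPlaces_add_nrComplexPlaces,
      IsCyclotomicExtension.Rat.nrRealPlaces_eq_zero (n := p) K hp,
      IsCyclotomicExtension.Rat.nrComplexPlaces_eq_totient_div_two p K,
      Nat.totient_prime Fact.out, zero_add]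
  rw [Units.rank, h1]
  omega

section theta

variable {p : ℕ} {O : Type*} [CommRing O] (ψ : O →+* DualNumber (KLA p))

/-- the logarithmic derivative -/
noncomputable def klθ (u : Oˣ) : KLA p := (ψ u).snd * (ψ (↑u⁻¹ : O)).fst

theorem kl_fst_mul_fst_inv (u : Oˣ) : (ψ u).fst * (ψ (↑u⁻¹ : O)).fst = 1 := by
  rw [← TrivSqZeroExt.fst_mul, ← map_mul, Units.mul_inv, map_one, TrivSqZeroExt.fst_one]

theorem klθ_mul (u v : Oˣ) : klθ ψ (u * v) = klθ ψ u + klθ ψ v := by
  have hu := kl_fst_mul_fst_inv ψ u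
  have hv := kl_fst_mul_fst_inv ψ v
  simp only [klθ, Units.val_mul, mul_inv, map_mul, TrivSqZeroExt.fst_mul, TrivSqZeroExt.snd_mul,
    smul_eq_mul, MulOpposite.smul_eq_mul_unop, MulOpposite.unop_op]
  linear_combination ((ψ v).snd * (ψ (↑v⁻¹ : O)).fst) * hu + ((ψ u).snd * (ψ (↑u⁻¹ : O)).fst) * hv

theorem klθ_eq_of_mul_eq (u : Oˣ) (g : KLA p) (h : (ψ u).fst * g = (ψ u).snd) : klθ ψ u = g := by
  have hu := kl_fst_mul_fst_inv ψ u
  rw [klθ, ← h]
  linear_combination g * hu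

theorem klθ_eq_zero_of_dvd (u : Oˣ) (n : ℤ) (h : (p : O) ∣ (u : O) - (n : O)) : klθ ψ u = 0 := by
  obtain ⟨w, hw⟩ := h
  have h1 : (u : O) = n + p * w := by rw [← hw]; ring
  have h2 : (p : DualNumber (KLA p)) = 0 := by
    ext
    · rw [TrivSqZeroExt.fst_natCast, kla_char, TrivSqZeroExt.fst_zero]
    · rw [TrivSqZeroExt.snd_natCast, TrivSqZeroExt.snd_zero]
  have h3 : ψ u = (n : DualNumber (KLA p)) := by
    rw [h1, map_add, map_mul, map_natCast, map_intCast, h2, zero_mul, add_zero]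
  rw [klθ, h3, TrivSqZeroExt.snd_intCast, zero_mul]

theorem klb_pow_fst (i : ℕ) : (klb p ^ i).fst = (1 + klt p) ^ i := by
  simp [klb, TrivSqZeroExt.fst_pow]

theorem klb_pow_snd (i : ℕ) : (klb p ^ i).snd = (i : KLA p) * (1 + klt p) ^ (i - 1) := by
  rw [TrivSqZeroExt.snd_pow]
  simp [klb]

end theta

/-- **Kummer's lemma from a certificate**: the logarithmic derivatives of `ζ` and of the cyclotomic
units `1 + ζ + ⋯ + ζ ^ (a - 1)`, `2 ≤ a ≤ (p - 1) / 2` are linearly independent. -/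
theorem kummerLemma_of_cert (p s : ℕ) [Fact p.Prime] (hps : p = 2 * s + 3) (hs : 1 ≤ s)
    (K : Type*) [Field K] [NumberField K] [IsCyclotomicExtension {p} ℚ K]
    (G : Fin (s + 1) → KLA p)
    (hG0 : (1 + klt p) * G 0 = 1)
    (hG : ∀ k : Fin s, (∑ i ∈ Finset.range ((k : ℕ) + 2), (1 + klt p) ^ i) * G k.succ =
      ∑ i ∈ Finset.range ((k : ℕ) + 2), (i : KLA p) * (1 + klt p) ^ (i - 1))
    (hlin : LinearIndependent (ZMod p) G) : KummerLemma p K := by
  have hpp : p.Prime := Fact.out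
  have hζ := IsCyclotomicExtension.zeta_spec p ℚ K
  obtain ⟨ψ, hψ⟩ := kl_exists_hom hζ (klb p) (klb_cyclotomic p (by omega))
  have hζ' := hζ.toInteger_isPrimitiveRoot
  let z : (𝓞 K)ˣ := (hζ'.isUnit hpp.ne_zero).unit
  have hcop : ∀ k : Fin s, Nat.Coprime ((k : ℕ) + 2) p := fun k =>
    ((Nat.Prime.coprime_iff_not_dvd hpp).mpr
      (Nat.not_dvd_of_pos_of_lt (by omega) (by have := k.2; omega))).symm
  let ua : Fin s → (𝓞 K)ˣ := fun k => (hζ'.geom_sum_isUnit hpp.two_le (hcop k)).unit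
  let w : Fin (s + 1) → (𝓞 K)ˣ := Fin.cons z ua
  have hw : ∀ k, klθ ψ (w k) = G k := by
    intro k
    refine Fin.cases ?_ (fun k => ?_) k
    · apply klθ_eq_of_mul_eq
      have h1 : ψ ((w 0 : (𝓞 K)ˣ) : 𝓞 K) = klb p := hψ
      rw [h1]
      have h2 := klb_pow_fst (p := p) 1
      have h3 := klb_pow_snd (p := p) 1
      rw [pow_one] at h2 h3
      rw [h2, h3, pow_one, hG0]
      simp
    · apply klθ_eq_of_mul_eq
      have h1 : ψ ((w k.succ : (𝓞 K)ˣ) : 𝓞 K) = ∑ i ∈ Finset.range ((k : ℕ) + 2), klb p ^ i := by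
        have : ((w k.succ : (𝓞 K)ˣ) : 𝓞 K) = ∑ i ∈ Finset.range ((k : ℕ) + 2), hζ.toInteger ^ i := rfl
        rw [this, map_sum]
        refine Finset.sum_congr rfl fun i _ => ?_
        rw [map_pow, hψ]
      rw [h1]
      have h2 : (∑ i ∈ Finset.range ((k : ℕ) + 2), klb p ^ i).fst =
          ∑ i ∈ Finset.range ((k : ℕ) + 2), (1 + klt p) ^ i := by
        rw [← TrivSqZeroExt.fstHom_apply (KLA p) (KLA p), map_sum]
        exact Finset.sum_congr rfl fun i _ => klb_pow_fst i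
      have h3 : (∑ i ∈ Finset.range ((k : ℕ) + 2), klb p ^ i).snd =
          ∑ i ∈ Finset.range ((k : ℕ) + 2), (i : KLA p) * (1 + klt p) ^ (i - 1) := by
        rw [← TrivSqZeroExt.sndHom_apply (KLA p) (KLA p), map_sum]
        exact Finset.sum_congr rfl fun i _ => klb_pow_snd i
      rw [h2, h3, hG k]
  have hw' : LinearIndependent (ZMod p) (fun k => klθ ψ (w k)) := by
    have : (fun k => klθ ψ (w k)) = G := funext hw
    rw [this]; exact hlin
  obtain ⟨g, hg⟩ := kl_units_gen K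
  have hrank := kl_rank p (by omega) K
  rintro u ⟨n, hn⟩
  refine kl_exists_pow_of_theta_eq_zero (p := p) (ι := Option (Fin (Units.rank K)))
    (κ := Fin (s + 1)) ?_ (klθ ψ) (klθ_mul ψ) g hg w hw' u (klθ_eq_zero_of_dvd ψ u n hn)
  rw [Fintype.card_option, Fintype.card_fin, Fintype.card_fin, hrank]
  omega

end Fermat.Agent.Kummer
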