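import Fermat.Agent.Kummer.LemmaIndep

set_option autoImplicit false
set_option linter.unusedSimpArgs false

open NumberField

namespace Fermat.Agent.Kummer

/-- coefficient table of the logarithmic derivatives for `p = 11` -/
def klC11 (k : Fin 5) (d : ℕ) : ℕ :=
  (([[1, 10, 1, 10, 1, 10, 1, 10, 1], [6, 8, 7, 2, 10, 6, 8, 7, 2], [1, 7, 0, 5, 6, 7, 2, 3, 0], [7, 8, 1, 8, 7, 6, 4, 0, 0], [2, 0, 10, 3, 0, 6, 5, 6, 5]] : List (List ℕ)).getD k []).getD d 0

/-- a left inverse of the coefficient table for `p = 11` -/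
def klM11 (k : Fin 5) (d : ℕ) : ℕ :=
  (([[9, 1, 0, 9, 0, 0, 0, 9, 0], [6, 8, 0, 0, 0, 8, 0, 1, 0], [7, 7, 0, 1, 0, 5, 0, 5, 0], [0, 4, 0, 3, 0, 0, 0, 4, 0], [2, 2, 0, 1, 0, 1, 0, 9, 0]] : List (List ℕ)).getD k []).getD d 0

theorem kl_indep11 : LinearIndependent (ZMod 11) (fun k => klG 11 (klC11 k)) :=
  kl_linearIndependent 11 4 klC11 klM11 (by decide)

theorem kummerLemma_eleven (K : Type*) [Field K] [NumberField K] [IsCyclotomicExtension {11} ℚ K] :
    KummerLemma 11 K := by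
  have : Fact (Nat.Prime 11) := ⟨by norm_num⟩
  have ht : klt 11 ^ 9 = 0 := klt_pow 11
  have hp : (11 : KLA 11) = 0 := by exact_mod_cast kla_char 11
  refine kummerLemma_of_cert 11 4 (by norm_num) (by norm_num) K (fun k => klG 11 (klC11 k)) ?_ ?_ kl_indep11
  · simp only [klG, klC11, Finset.sum_range_succ, Finset.sum_range_zero, Nat.reduceSub, Fin.val_zero, List.getD_cons_zero, List.getD_cons_succ]
    push_cast
    linear_combination ((1)) * ht + ((1) * klt 11 + (1) * klt 11 ^ 2 + (1) * klt 11 ^ 3 + (1) * klt 11 ^ 4 + (1) * klt 11 ^ 5 + (1) * klt 11 ^ 6 + (1) * klt 11 ^ 7 + (1) * klt 11 ^ 8) * hp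
  · intro k
    fin_cases k
    · simp only [klG, klC11, Finset.sum_range_succ, Finset.sum_range_zero, Nat.reduceSub, Nat.reduceAdd, Fin.val_zero, Fin.val_succ, Fin.zero_eta, Fin.mk_one, Fin.reduceFinMk, Fin.isValue, Fin.val_one, Fin.val_two, Fin.succ_zero_eq_one, Fin.succ_one_eq_two, Fin.reduceSucc, Fin.coe_ofNat_eq_mod, Nat.reduceMod, List.getD_cons_zero, List.getD_cons_succ]
      push_cast
      linear_combination ((2)) * ht + ((1) + (2) * klt 11 + (2) * klt 11 ^ 2 + (1) * klt 11 ^ 3 + (2) * klt 11 ^ 4 + (2) * klt 11 ^ 5 + (2) * klt 11 ^ 6 + (2) * klt 11 ^ 7 + (1) * klt 11 ^ 8) * hp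
    · simp only [klG, klC11, Finset.sum_range_succ, Finset.sum_range_zero, Nat.reduceSub, Nat.reduceAdd, Fin.val_zero, Fin.val_succ, Fin.zero_eta, Fin.mk_one, Fin.reduceFinMk, Fin.isValue, Fin.val_one, Fin.val_two, Fin.succ_zero_eq_one, Fin.succ_one_eq_two, Fin.reduceSucc, Fin.coe_ofNat_eq_mod, Nat.reduceMod, List.getD_cons_zero, List.getD_cons_succ]
      push_cast
      linear_combination ((3)) * ht + ((2) * klt 11 + (2) * klt 11 ^ 2 + (2) * klt 11 ^ 3 + (3) * klt 11 ^ 4 + (4) * klt 11 ^ 5 + (3) * klt 11 ^ 6 + (2) * klt 11 ^ 7 + (1) * klt 11 ^ 8) * hp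
    · simp only [klG, klC11, Finset.sum_range_succ, Finset.sum_range_zero, Nat.reduceSub, Nat.reduceAdd, Fin.val_zero, Fin.val_succ, Fin.zero_eta, Fin.mk_one, Fin.reduceFinMk, Fin.isValue, Fin.val_one, Fin.val_two, Fin.succ_zero_eq_one, Fin.succ_one_eq_two, Fin.reduceSucc, Fin.coe_ofNat_eq_mod, Nat.reduceMod, List.getD_cons_zero, List.getD_cons_succ]
      push_cast
      linear_combination ((4)) * ht + ((2) + (6) * klt 11 + (7) * klt 11 ^ 2 + (7) * klt 11 ^ 3 + (8) * klt 11 ^ 4 + (9) * klt 11 ^ 5 + (8) * klt 11 ^ 6 + (5) * klt 11 ^ 7 + (2) * klt 11 ^ 8) * hp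
    · simp only [klG, klC11, Finset.sum_range_succ, Finset.sum_range_zero, Nat.reduceSub, Nat.reduceAdd, Fin.val_zero, Fin.val_succ, Fin.zero_eta, Fin.mk_one, Fin.reduceFinMk, Fin.isValue, Fin.val_one, Fin.val_two, Fin.succ_zero_eq_one, Fin.succ_one_eq_two, Fin.reduceSucc, Fin.coe_ofNat_eq_mod, Nat.reduceMod, List.getD_cons_zero, List.getD_cons_succ]
      push_cast
      linear_combination ((141) + (85) * klt 11 + (31) * klt 11 ^ 2 + (5) * klt 11 ^ 3) * ht + ((5) * klt 11 ^ 2 + (11) * klt 11 ^ 3 + (12) * klt 11 ^ 4 + (10) * klt 11 ^ 5 + (10) * klt 11 ^ 6 + (13) * klt 11 ^ 7 + (15) * klt 11 ^ 8) * hp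

end Fermat.Agent.Kummer
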