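import Fermat.Agent.Kummer.LemmaIndep

set_option autoImplicit false
set_option linter.unusedSimpArgs false

open NumberField

namespace Fermat.Agent.Kummer

/-- coefficient table of the logarithmic derivatives for `p = 13` -/
def klC13 (k : Fin 6) (d : ℕ) : ℕ :=
  (([[1, 12, 1, 12, 1, 12, 1, 12, 1, 12, 1], [7, 3, 5, 4, 11, 1, 6, 10, 8, 9, 2], [1, 4, 0, 3, 10, 2, 12, 9, 0, 10, 3], [8, 3, 11, 11, 1, 1, 11, 5, 4, 9, 4], [2, 0, 12, 6, 0, 2, 11, 4, 7, 3, 5], [9, 8, 3, 8, 9, 1, 6, 7, 6, 7, 6]] : List (List ℕ)).getD k []).getD d 0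

/-- a left inverse of the coefficient table for `p = 13` -/
def klM13 (k : Fin 6) (d : ℕ) : ℕ :=
  (([[1, 3, 0, 3, 0, 9, 0, 7, 0, 4, 0], [10, 2, 0, 10, 0, 7, 0, 11, 0, 6, 0], [12, 12, 0, 2, 0, 4, 0, 0, 0, 7, 0], [7, 11, 0, 9, 0, 9, 0, 6, 0, 11, 0], [4, 2, 0, 2, 0, 7, 0, 1, 0, 5, 0], [4, 1, 0, 2, 0, 11, 0, 1, 0, 2, 0]] : List (List ℕ)).getD k []).getD d 0

theorem kl_indep13 : LinearIndependent (ZMod 13) (fun k => klG 13 (klC13 k)) :=
  kl_linearIndependent 13 5 klC13 klM13 (by decide)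

theorem kummerLemma_thirteen (K : Type*) [Field K] [NumberField K] [IsCyclotomicExtension {13} ℚ K] :
    KummerLemma 13 K := by
  have : Fact (Nat.Prime 13) := ⟨by norm_num⟩
  have ht : klt 13 ^ 11 = 0 := klt_pow 13
  have hp : (13 : KLA 13) = 0 := by exact_mod_cast kla_char 13
  refine kummerLemma_of_cert 13 5 (by norm_num) (by norm_num) K (fun k => klG 13 (klC13 k)) ?_ ?_ kl_indep13
  · simp only [klG, klC13, Finset.sum_range_succ, Finset.sum_range_zero, Nat.reduceSub, Fin.val_zero, List.getD_cons_zero, List.getD_cons_succ]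
    push_cast
    linear_combination ((1)) * ht + ((1) * klt 13 + (1) * klt 13 ^ 2 + (1) * klt 13 ^ 3 + (1) * klt 13 ^ 4 + (1) * klt 13 ^ 5 + (1) * klt 13 ^ 6 + (1) * klt 13 ^ 7 + (1) * klt 13 ^ 8 + (1) * klt 13 ^ 9 + (1) * klt 13 ^ 10) * hp
  · intro k
    fin_cases k
    · simp only [klG, klC13, Finset.sum_range_succ, Finset.sum_range_zero, Nat.reduceSub, Nat.reduceAdd, Fin.val_zero, Fin.val_succ, Fin.zero_eta, Fin.mk_one, Fin.reduceFinMk, Fin.isValue, Fin.val_one, Fin.val_two, Fin.succ_zero_eq_one, Fin.succ_one_eq_two, Fin.reduceSucc, Fin.coe_ofNat_eq_mod, Nat.reduceMod, List.getD_cons_zero, List.getD_cons_succ]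
      push_cast
      linear_combination ((2)) * ht + ((1) + (1) * klt 13 + (1) * klt 13 ^ 2 + (1) * klt 13 ^ 3 + (2) * klt 13 ^ 4 + (1) * klt 13 ^ 5 + (1) * klt 13 ^ 6 + (2) * klt 13 ^ 7 + (2) * klt 13 ^ 8 + (2) * klt 13 ^ 9 + (1) * klt 13 ^ 10) * hp
    · simp only [klG, klC13, Finset.sum_range_succ, Finset.sum_range_zero, Nat.reduceSub, Nat.reduceAdd, Fin.val_zero, Fin.val_succ, Fin.zero_eta, Fin.mk_one, Fin.reduceFinMk, Fin.isValue, Fin.val_one, Fin.val_two, Fin.succ_zero_eq_one, Fin.succ_one_eq_two, Fin.reduceSucc, Fin.coe_ofNat_eq_mod, Nat.reduceMod, List.getD_cons_zero, List.getD_cons_succ]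
      push_cast
      linear_combination ((19) + (3) * klt 13) * ht + ((1) * klt 13 + (1) * klt 13 ^ 2 + (1) * klt 13 ^ 3 + (3) * klt 13 ^ 4 + (3) * klt 13 ^ 5 + (4) * klt 13 ^ 6 + (5) * klt 13 ^ 7 + (3) * klt 13 ^ 8 + (3) * klt 13 ^ 9 + (3) * klt 13 ^ 10) * hp
    · simp only [klG, klC13, Finset.sum_range_succ, Finset.sum_range_zero, Nat.reduceSub, Nat.reduceAdd, Fin.val_zero, Fin.val_succ, Fin.zero_eta, Fin.mk_one, Fin.reduceFinMk, Fin.isValue, Fin.val_one, Fin.val_two, Fin.succ_zero_eq_one, Fin.succ_one_eq_two, Fin.reduceSucc, Fin.coe_ofNat_eq_mod, Nat.reduceMod, List.getD_cons_zero, List.getD_cons_succ]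
      push_cast
      linear_combination ((64) + (25) * klt 13 + (4) * klt 13 ^ 2) * ht + ((2) + (4) * klt 13 + (7) * klt 13 ^ 2 + (10) * klt 13 ^ 3 + (9) * klt 13 ^ 4 + (5) * klt 13 ^ 5 + (5) * klt 13 ^ 6 + (7) * klt 13 ^ 7 + (7) * klt 13 ^ 8 + (7) * klt 13 ^ 9 + (7) * klt 13 ^ 10) * hp
    · simp only [klG, klC13, Finset.sum_range_succ, Finset.sum_range_zero, Nat.reduceSub, Nat.reduceAdd, Fin.val_zero, Fin.val_succ, Fin.zero_eta, Fin.mk_one, Fin.reduceFinMk, Fin.isValue, Fin.val_one, Fin.val_two, Fin.succ_zero_eq_one, Fin.succ_one_eq_two, Fin.reduceSucc, Fin.coe_ofNat_eq_mod, Nat.reduceMod, List.getD_cons_zero, List.getD_cons_succ]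
      push_cast
      linear_combination ((119) + (72) * klt 13 + (28) * klt 13 ^ 2 + (5) * klt 13 ^ 3) * ht + ((5) * klt 13 ^ 2 + (12) * klt 13 ^ 3 + (14) * klt 13 ^ 4 + (10) * klt 13 ^ 5 + (9) * klt 13 ^ 6 + (12) * klt 13 ^ 7 + (15) * klt 13 ^ 8 + (14) * klt 13 ^ 9 + (12) * klt 13 ^ 10) * hp
    · simp only [klG, klC13, Finset.sum_range_succ, Finset.sum_range_zero, Nat.reduceSub, Nat.reduceAdd, Fin.val_zero, Fin.val_succ, Fin.zero_eta, Fin.mk_one, Fin.reduceFinMk, Fin.isValue, Fin.val_one, Fin.val_two, Fin.succ_zero_eq_one, Fin.succ_one_eq_two, Fin.reduceSucc, Fin.coe_ofNat_eq_mod, Nat.reduceMod, List.getD_cons_zero, List.getD_cons_succ]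
      push_cast
      linear_combination ((368) + (268) * klt 13 + (138) * klt 13 ^ 2 + (43) * klt 13 ^ 3 + (6) * klt 13 ^ 4) * ht + ((3) + (11) * klt 13 + (21) * klt 13 ^ 2 + (28) * klt 13 ^ 3 + (31) * klt 13 ^ 4 + (31) * klt 13 ^ 5 + (29) * klt 13 ^ 6 + (26) * klt 13 ^ 7 + (26) * klt 13 ^ 8 + (29) * klt 13 ^ 9 + (31) * klt 13 ^ 10) * hp

end Fermat.Agent.Kummer
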