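import Fermat.Agent.Kummer.LemmaIndep

set_option autoImplicit false
set_option linter.unusedSimpArgs false

open NumberField

namespace Fermat.Agent.Kummer

/-- coefficient table of the logarithmic derivatives for `p = 5` -/
def klC5 (k : Fin 2) (d : ℕ) : ℕ :=
  (([[1, 4, 1], [3, 1, 2]] : List (List ℕ)).getD k []).getD d 0

/-- a left inverse of the coefficient table for `p = 5` -/
def klM5 (k : Fin 2) (d : ℕ) : ℕ :=
  (([[4, 3, 0], [4, 4, 0]] : List (List ℕ)).getD k []).getD d 0

theorem kl_indep5 : LinearIndependent (ZMod 5) (fun k => klG 5 (klC5 k)) :=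
  kl_linearIndependent 5 1 klC5 klM5 (by decide)

theorem kummerLemma_five (K : Type*) [Field K] [NumberField K] [IsCyclotomicExtension {5} ℚ K] :
    KummerLemma 5 K := by
  have : Fact (Nat.Prime 5) := ⟨by norm_num⟩
  have ht : klt 5 ^ 3 = 0 := klt_pow 5
  have hp : (5 : KLA 5) = 0 := by exact_mod_cast kla_char 5
  refine kummerLemma_of_cert 5 1 (by norm_num) (by norm_num) K (fun k => klG 5 (klC5 k)) ?_ ?_ kl_indep5
  · simp only [klG, klC5, Finset.sum_range_succ, Finset.sum_range_zero, Nat.reduceSub, Fin.val_zero, List.getD_cons_zero, List.getD_cons_succ]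
    push_cast
    linear_combination ((1)) * ht + ((1) * klt 5 + (1) * klt 5 ^ 2) * hp
  · intro k
    fin_cases k
    · simp only [klG, klC5, Finset.sum_range_succ, Finset.sum_range_zero, Nat.reduceSub, Nat.reduceAdd, Fin.val_zero, Fin.val_succ, Fin.zero_eta, Fin.mk_one, Fin.reduceFinMk, Fin.isValue, Fin.val_one, Fin.val_two, Fin.succ_zero_eq_one, Fin.succ_one_eq_two, Fin.reduceSucc, Fin.coe_ofNat_eq_mod, Nat.reduceMod, List.getD_cons_zero, List.getD_cons_succ]
      push_cast
      linear_combination ((2)) * ht + ((1) + (1) * klt 5 + (1) * klt 5 ^ 2) * hp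

end Fermat.Agent.Kummer
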