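import Fermat.Agent.Kummer.LemmaIndep

set_option autoImplicit false
set_option linter.unusedSimpArgs false

open NumberField

namespace Fermat.Agent.Kummer

/-- coefficient table of the logarithmic derivatives for `p = 7` -/
def klC7 (k : Fin 3) (d : ℕ) : ℕ :=
  (([[1, 6, 1, 6, 1], [4, 5, 1, 3, 2], [1, 2, 0, 4, 3]] : List (List ℕ)).getD k []).getD d 0

/-- a left inverse of the coefficient table for `p = 7` -/
def klM7 (k : Fin 3) (d : ℕ) : ℕ :=
  (([[0, 5, 0, 1, 0], [3, 4, 0, 6, 0], [3, 0, 0, 3, 0]] : List (List ℕ)).getD k []).getD d 0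

theorem kl_indep7 : LinearIndependent (ZMod 7) (fun k => klG 7 (klC7 k)) :=
  kl_linearIndependent 7 2 klC7 klM7 (by decide)

theorem kummerLemma_seven (K : Type*) [Field K] [NumberField K] [IsCyclotomicExtension {7} ℚ K] :
    KummerLemma 7 K := by
  have : Fact (Nat.Prime 7) := ⟨by norm_num⟩
  have ht : klt 7 ^ 5 = 0 := klt_pow 7
  have hp : (7 : KLA 7) = 0 := by exact_mod_cast kla_char 7
  refine kummerLemma_of_cert 7 2 (by norm_num) (by norm_num) K (fun k => klG 7 (klC7 k)) ?_ ?_ kl_indep7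
  · simp only [klG, klC7, Finset.sum_range_succ, Finset.sum_range_zero, Nat.reduceSub, Fin.val_zero, List.getD_cons_zero, List.getD_cons_succ]
    push_cast
    linear_combination ((1)) * ht + ((1) * klt 7 + (1) * klt 7 ^ 2 + (1) * klt 7 ^ 3 + (1) * klt 7 ^ 4) * hp
  · intro k
    fin_cases k
    · simp only [klG, klC7, Finset.sum_range_succ, Finset.sum_range_zero, Nat.reduceSub, Nat.reduceAdd, Fin.val_zero, Fin.val_succ, Fin.zero_eta, Fin.mk_one, Fin.reduceFinMk, Fin.isValue, Fin.val_one, Fin.val_two, Fin.succ_zero_eq_one, Fin.succ_one_eq_two, Fin.reduceSucc, Fin.coe_ofNat_eq_mod, Nat.reduceMod, List.getD_cons_zero, List.getD_cons_succ]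
      push_cast
      linear_combination ((2)) * ht + ((1) + (2) * klt 7 + (1) * klt 7 ^ 2 + (1) * klt 7 ^ 3 + (1) * klt 7 ^ 4) * hp
    · simp only [klG, klC7, Finset.sum_range_succ, Finset.sum_range_zero, Nat.reduceSub, Nat.reduceAdd, Fin.val_zero, Fin.val_succ, Fin.zero_eta, Fin.mk_one, Fin.reduceFinMk, Fin.isValue, Fin.val_one, Fin.val_two, Fin.succ_zero_eq_one, Fin.succ_one_eq_two, Fin.reduceSucc, Fin.coe_ofNat_eq_mod, Nat.reduceMod, List.getD_cons_zero, List.getD_cons_succ]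
      push_cast
      linear_combination ((13) + (3) * klt 7) * ht + ((1) * klt 7 + (1) * klt 7 ^ 2 + (2) * klt 7 ^ 3 + (3) * klt 7 ^ 4) * hp

end Fermat.Agent.Kummer
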