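import Fermat.Agent.Kummer.Lemma

set_option autoImplicit false

open Polynomial

namespace Fermat.Agent.Kummer

/-- the element of the truncated polynomial ring with given coefficient table -/
noncomputable def klG (p : ℕ) (c : ℕ → ℕ) : KLA p :=
  ∑ j ∈ Finset.range (p - 2), (c j : KLA p) * klt p ^ j

/-- the corresponding polynomial -/
noncomputable def klP (p : ℕ) (c : ℕ → ℕ) : (ZMod p)[X] :=
  ∑ j ∈ Finset.range (p - 2), C (c j : ZMod p) * X ^ j

theorem klG_eq_mk (p : ℕ) (c : ℕ → ℕ) : klG p c = Ideal.Quotient.mk _ (klP p c) := by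
  rw [klG, klP, map_sum]
  refine Finset.sum_congr rfl fun j _ => ?_
  rw [map_mul, map_pow, klt]
  congr 1

theorem klP_coeff (p : ℕ) (c : ℕ → ℕ) (d : ℕ) (hd : d < p - 2) :
    (klP p c).coeff d = (c d : ZMod p) := by
  rw [klP, finsetSum_coeff]
  simp only [coeff_C_mul_X_pow]
  rw [Finset.sum_ite_eq]
  simp [hd]

theorem kl_linearIndependent (p s : ℕ) (c M : Fin (s + 1) → ℕ → ℕ)
    (hM : ∀ k j : Fin (s + 1),
      (∑ d ∈ Finset.range (p - 2), M k d * c j d) % p = if k = j then 1 % p else 0) :
    LinearIndependent (ZMod p) (fun k => klG p (c k)) := by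
  rw [Fintype.linearIndependent_iff]
  intro e he
  have h1 : (Ideal.Quotient.mk (Ideal.span {(X : (ZMod p)[X]) ^ (p - 2)}))
      (∑ k, C (e k) * klP p (c k)) = 0 := by
    rw [← he, map_sum]
    refine Finset.sum_congr rfl fun k _ => ?_
    rw [map_mul, klG_eq_mk]
    exact (Algebra.smul_def (A := KLA p) (e k) _).symm
  rw [Ideal.Quotient.eq_zero_iff_mem, Ideal.mem_span_singleton, X_pow_dvd_iff] at h1
  have h2 : ∀ d < p - 2, ∑ j, e j * (c j d : ZMod p) = 0 := by
    intro d hd
    have := h1 d hd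
    rw [finsetSum_coeff] at this
    rw [← this]
    refine Finset.sum_congr rfl fun k _ => ?_
    rw [coeff_C_mul, klP_coeff p _ d hd]
  have hM' : ∀ k j : Fin (s + 1),
      ∑ d ∈ Finset.range (p - 2), (M k d : ZMod p) * (c j d : ZMod p) = if k = j then 1 else 0 := by
    intro k j
    have h3 := congrArg (Nat.cast : ℕ → ZMod p) (hM k j)
    rw [ZMod.natCast_mod] at h3
    push_cast at h3
    rw [h3]
    split_ifs
    · rw [ZMod.natCast_mod]; simp
    · simp
  intro k
  calc e k = ∑ j, e j * (if k = j then 1 else 0) := by simp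
    _ = ∑ j, e j * ∑ d ∈ Finset.range (p - 2), (M k d : ZMod p) * (c j d : ZMod p) := by
        simp_rw [hM']
    _ = ∑ d ∈ Finset.range (p - 2), (M k d : ZMod p) * ∑ j, e j * (c j d : ZMod p) := by
        simp_rw [Finset.mul_sum]
        rw [Finset.sum_comm]
        refine Finset.sum_congr rfl fun d _ => Finset.sum_congr rfl fun j _ => ?_
        ring
    _ = 0 := by
        refine Finset.sum_eq_zero fun d hd => ?_
        rw [h2 d (Finset.mem_range.mp hd), mul_zero]

end Fermat.Agent.Kummer
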