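import Mathlib

/-!
# Principal ideal domains among prime cyclotomic rings: generic reductions

Generic lemmas used for `ℤ[ζ₇]`, `ℤ[ζ₁₁]`, `ℤ[ζ₁₃]`.
-/

set_option autoImplicit false

namespace Fermat.Agent.Kummer

open NumberField Ideal Polynomial Module InfinitePlace IsCyclotomicExtension.Rat
open scoped Real Nat

section generic

variable (p : ℕ) [hp : Fact p.Prime] (K : Type*) [Field K] [NumberField K]
  [hK : IsCyclotomicExtension {p} ℚ K]

/-- the chosen primitive root, as an algebraic integer. -/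
noncomputable abbrev pidZeta : 𝓞 K := (IsCyclotomicExtension.zeta_spec p ℚ K).toInteger

theorem pid_geom_sum_zeta : ∑ i ∈ Finset.range p, (pidZeta p K) ^ i = 0 := by
  have h := (IsCyclotomicExtension.zeta_spec p ℚ K).toInteger_isPrimitiveRoot
  exact h.geom_sum_eq_zero hp.out.one_lt

theorem pid_minpoly_zeta : minpoly ℤ (pidZeta p K) = cyclotomic p ℤ := by
  have h := cyclotomic_eq_minpoly (IsCyclotomicExtension.zeta_spec p ℚ K) hp.out.pos
  rw [h, ← (IsCyclotomicExtension.zeta_spec p ℚ K).coe_toInteger,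
    ← RingOfIntegers.minpoly_coe]
  rfl

theorem pid_not_dvd_exponent (ℓ : ℕ) [hℓ : Fact ℓ.Prime] :
    ¬ ℓ ∣ RingOfIntegers.exponent (pidZeta p K) := by
  rw [RingOfIntegers.exponent_eq_one_iff.mpr <|
    adjoin_singleton_eq_top (IsCyclotomicExtension.zeta_spec p ℚ K)]
  exact hℓ.out.not_dvd_one

/-- A certificate that some prime above `ℓ` is principal. -/
theorem pid_exists_principal (ℓ : ℕ) [hℓ : Fact ℓ.Prime] (Q : ℤ[X])
    (hQi : Irreducible (Q.map (Int.castRingHom (ZMod ℓ))))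
    (hQm : (Q.map (Int.castRingHom (ZMod ℓ))).Monic)
    (hQd : Q.map (Int.castRingHom (ZMod ℓ)) ∣ cyclotomic p (ZMod ℓ))
    (α β γ u v : 𝓞 K) (h1 : (ℓ : 𝓞 K) = α * β) (h2 : aeval (pidZeta p K) Q = α * γ)
    (h3 : α = (ℓ : 𝓞 K) * u + aeval (pidZeta p K) Q * v) :
    ∃ P ∈ primesOver (span {(ℓ : ℤ)}) (𝓞 K), Submodule.IsPrincipal P := by
  have hmem : Q.map (Int.castRingHom (ZMod ℓ)) ∈
      RingOfIntegers.monicFactorsMod (pidZeta p K) ℓ := by
    rw [Multiset.mem_toFinset, Polynomial.mem_normalizedFactors_iff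
      (map_monic_ne_zero (minpoly.monic (pidZeta p K).isIntegral))]
    refine ⟨hQi, hQm, ?_⟩
    rw [pid_minpoly_zeta, map_cyclotomic_int]
    exact hQd
  have hne := pid_not_dvd_exponent p K ℓ
  refine ⟨_, ((NumberField.Ideal.primesOverSpanEquivMonicFactorsMod hne).symm ⟨_, hmem⟩).2, ?_⟩
  rw [NumberField.Ideal.primesOverSpanEquivMonicFactorsMod_symm_apply_eq_span hne hmem]
  refine ⟨α, ?_⟩
  rw [Ideal.submodule_span_eq]
  apply le_antisymm
  · rw [Ideal.span_le]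
    intro x hx
    rcases hx with rfl | hx
    · exact Ideal.mem_span_singleton.2 ⟨β, h1⟩
    · rw [Set.mem_singleton_iff] at hx
      subst hx
      exact Ideal.mem_span_singleton.2 ⟨γ, h2⟩
  · rw [Ideal.span_singleton_le_iff_mem, h3]
    refine add_mem (Ideal.mul_mem_right _ _ (Ideal.subset_span (by simp)))
      (Ideal.mul_mem_right _ _ (Ideal.subset_span (by simp)))

/-- Generic reduction of principality to a finite check. -/
theorem pid_of_bound (B : ℕ)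
    (hB : (4 / π) ^ nrComplexPlaces K *
      ((finrank ℚ K)! / (finrank ℚ K) ^ (finrank ℚ K) * √|discr K|) < B + 1)
    (h : ∀ ℓ ∈ Finset.Icc 1 B, ℓ.Prime → ℓ ≠ p →
      (∀ f, 0 < f → ℓ ^ f ≤ B → ℓ ^ f % p ≠ 1) ∨
        ∃ P ∈ primesOver (span {(ℓ : ℤ)}) (𝓞 K), Submodule.IsPrincipal P) :
    IsPrincipalIdealRing (𝓞 K) := by
  have hgal : IsGalois ℚ K := IsCyclotomicExtension.isGalois {p} ℚ K
  have hfl : ⌊(4 / π) ^ nrComplexPlaces K *
      ((finrank ℚ K)! / (finrank ℚ K) ^ (finrank ℚ K) * √|discr K|)⌋₊ ≤ B := by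
    rw [← Nat.lt_succ_iff, Nat.floor_lt (by positivity)]
    exact_mod_cast hB
  apply RingOfIntegers.isPrincipalIdealRing_of_isPrincipal_of_lt_or_isPrincipal_of_mem_primesOver_of_mem_Icc
  intro ℓ hℓ hℓp
  have hℓB : ℓ ∈ Finset.Icc 1 B := by
    rw [Finset.mem_Icc] at hℓ ⊢
    exact ⟨hℓ.1, hℓ.2.trans hfl⟩
  by_cases hℓeq : ℓ = p
  · subst hℓeq
    refine ⟨span {(IsCyclotomicExtension.zeta_spec ℓ ℚ K).toInteger - 1}, ⟨?_, ?_⟩, Or.inr ⟨_, rfl⟩⟩
    · exact isPrime_span_zeta_sub_one' ℓ _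
    · have hK' : IsCyclotomicExtension {ℓ ^ (0 + 1)} ℚ K := by simpa using hK
      have hζ' : IsPrimitiveRoot (IsCyclotomicExtension.zeta ℓ ℚ K) (ℓ ^ (0 + 1)) := by
        simp [IsCyclotomicExtension.zeta_spec ℓ ℚ K]
      exact liesOver_span_zeta_sub_one ℓ 0 hζ'
  · rcases h ℓ hℓB hℓp hℓeq with h1 | ⟨P, hP, hPp⟩
    · have : Fact ℓ.Prime := ⟨hℓp⟩
      obtain ⟨⟨P, hP1, hP2⟩⟩ := (span {(ℓ : ℤ)}).nonempty_primesOver (S := 𝓞 K)
      refine ⟨P, ⟨hP1, hP2⟩, Or.inl ?_⟩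
      have hnd : ¬ ℓ ∣ p := fun hd => hℓeq ((Nat.prime_dvd_prime_iff_eq hℓp hp.out).1 hd)
      rw [inertiaDeg_eq_of_not_dvd ℓ K P hnd]
      by_contra hcon
      rw [not_lt] at hcon
      have hne0 : (ℓ : ZMod p) ≠ 0 := by
        rw [Ne, ZMod.natCast_eq_zero_iff]
        exact fun hd => hℓeq ((Nat.prime_dvd_prime_iff_eq hp.out hℓp).1 hd).symm
      have hpos : 0 < orderOf (ℓ : ZMod p) := by
        rw [orderOf_pos_iff, isOfFinOrder_iff_pow_eq_one]
        exact ⟨p - 1, Nat.sub_pos_of_lt hp.out.one_lt, ZMod.pow_card_sub_one_eq_one hne0⟩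
      refine h1 _ hpos (hcon.trans hfl) ?_
      have h2 : ((ℓ ^ orderOf (ℓ : ZMod p) : ℕ) : ZMod p) = ((1 : ℕ) : ZMod p) := by
        rw [Nat.cast_pow, pow_orderOf_eq_one, Nat.cast_one]
      rw [ZMod.natCast_eq_natCast_iff'] at h2
      rw [h2, Nat.mod_eq_of_lt hp.out.one_lt]
    · exact ⟨P, hP, Or.inr hPp⟩

end generic

end Fermat.Agent.Kummer
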