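import Fermat.Agent.Kummer.PID

/-!
# `ℤ[ζ₁₁]` is a principal ideal domain
-/

set_option autoImplicit false

namespace Fermat.Agent.Kummer

open NumberField Ideal Polynomial Module InfinitePlace IsCyclotomicExtension.Rat
open scoped Real Nat

set_option maxRecDepth 100000 in
theorem pid_aux_eleven : ∀ ℓ ∈ Finset.range 60, ∀ f ∈ Finset.range 6, 0 < f → ℓ ^ f ≤ 59 →
    ℓ ^ f % 11 = 1 → ℓ ∈ [1, 12, 23, 34, 45, 56] := by
  decide

theorem pid_root_eleven_23 : (∑ x ∈ Finset.range 11, (13 : ZMod 23) ^ x) = 0 := by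
  decide

theorem pid_eleven_23 (K : Type*) [Field K] [NumberField K] [IsCyclotomicExtension {11} ℚ K] :
    ∃ P ∈ primesOver (span {((23 : ℕ) : ℤ)}) (𝓞 K), Submodule.IsPrincipal P := by
  have : Fact (Nat.Prime 11) := ⟨by norm_num⟩
  have : Fact (Nat.Prime 23) := ⟨by norm_num⟩
  set z : 𝓞 K := pidZeta 11 K with hz
  have hΦ : 1 + z + z ^ 2 + z ^ 3 + z ^ 4 + z ^ 5 + z ^ 6 + z ^ 7 + z ^ 8 + z ^ 9 + z ^ 10 = 0 := by
    have := pid_geom_sum_zeta 11 K
    simpa [Finset.sum_range_succ] using this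
  have hmap : (X - C (13 : ℤ) : ℤ[X]).map (Int.castRingHom (ZMod 23)) = X - C (13 : ZMod 23) := by
    rw [Polynomial.map_sub, Polynomial.map_X, Polynomial.map_C, map_ofNat]
  have hev : aeval z (X - C (13 : ℤ) : ℤ[X]) = z - 13 := by
    rw [map_sub, aeval_X, aeval_C, map_ofNat]
  refine pid_exists_principal 11 K 23 (X - C (13 : ℤ)) ?_ ?_ ?_ (1 - z + z ^ 3)
    (8 - 2 * z - z ^ 2 - 8 * z ^ 3 - 5 * z ^ 4 - 3 * z ^ 5 + 6 * z ^ 6 + 12 * z ^ 7 + 16 * z ^ 8
      + 11 * z ^ 9)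
    (-5 + z + 4 * z ^ 3 + 2 * z ^ 4 + z ^ 5 - 4 * z ^ 6 - 7 * z ^ 7 - 9 * z ^ 8 - 6 * z ^ 9)
    95 (168 + 13 * z + z ^ 2) ?_ ?_ ?_
  · rw [hmap]
    exact irreducible_X_sub_C _
  · rw [hmap]
    exact monic_X_sub_C _
  · rw [hmap, dvd_iff_isRoot, cyclotomic_prime, IsRoot.def, eval_finsetSum]
    simp only [eval_pow, eval_X]
    exact pid_root_eleven_23
  · rw [Nat.cast_ofNat]
    linear_combination (-(-15 + 5 * z + 11 * z ^ 2)) * hΦ
  · rw [hev]
    linear_combination (-(8 - 3 * z - 6 * z ^ 2)) * hΦ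
  · rw [hev, Nat.cast_ofNat]
    ring

theorem pid_eleven (K : Type*) [Field K] [NumberField K] [IsCyclotomicExtension {11} ℚ K] :
    IsPrincipalIdealRing (𝓞 K) := by
  have : Fact (Nat.Prime 11) := ⟨by norm_num⟩
  apply pid_of_bound 11 K 59
  · rw [discr_prime 11 K, IsCyclotomicExtension.finrank (n := 11) K
      (cyclotomic.irreducible_rat (by simp)), nrComplexPlaces_eq_totient_div_two 11,
      Nat.totient_prime (by norm_num)]
    have h1 : (4 / π) < 4 / 3.14 := by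
      gcongr
      exact Real.pi_gt_d2
    have h2 : √(2357947691 : ℝ) < 48559 := by
      rw [Real.sqrt_lt' (by norm_num)]
      norm_num
    have h3 : |((((-1 : ℤ) ^ ((11 - 1) / 2) * ((11 : ℕ) : ℤ) ^ (11 - 2)) : ℤ) : ℝ)|
        = 2357947691 := by
      norm_num
    have h4 : ((11 - 1 : ℕ)! : ℝ) = 3628800 := by
      norm_num [Nat.factorial]
    rw [h3, h4]
    calc (4 / π) ^ ((11 - 1) / 2) * (3628800 / ((11 - 1 : ℕ) : ℝ) ^ (11 - 1) * √2357947691)
        < (4 / 3.14) ^ ((11 - 1) / 2) * (3628800 / ((11 - 1 : ℕ) : ℝ) ^ (11 - 1) * 48559) := by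
          gcongr
      _ < ((59 : ℕ) : ℝ) + 1 := by norm_num
  · intro ℓ hℓ hp hne
    rw [Finset.mem_Icc] at hℓ
    by_cases h23 : ℓ = 23
    · subst h23
      exact Or.inr (pid_eleven_23 K)
    · left
      intro f hf hle hmod
      have hf6 : f < 6 := by
        by_contra hcon
        rw [not_lt] at hcon
        have h1 : 2 ^ 6 ≤ ℓ ^ f :=
          (Nat.pow_le_pow_left hp.two_le 6).trans (Nat.pow_le_pow_right hp.pos hcon)
        omega
      have hmem := pid_aux_eleven ℓ (Finset.mem_range.2 (by omega)) f (Finset.mem_range.2 hf6)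
        hf hle hmod
      simp only [List.mem_cons, List.not_mem_nil, or_false] at hmem
      rcases hmem with rfl | rfl | rfl | rfl | rfl | rfl
      all_goals first | exact h23 rfl | (revert hp; norm_num)

end Fermat.Agent.Kummer
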