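import Mathlib

set_option autoImplicit false

open NumberField Polynomial Ideal Module InfinitePlace Nat Real

namespace Fermat.Agent.Kummer

section generic

variable {p : ℕ} [NeZero p] {K : Type*} [Field K] [NumberField K]
  [IsCyclotomicExtension {p} ℚ K] {ζ : K} (hζ : IsPrimitiveRoot ζ p)

include hζ in
/-- certificate for a principal prime above `ℓ` in a cyclotomic ring of integers -/
theorem pid13_exists_principal (ℓ : ℕ) [Fact ℓ.Prime] (Q : ℤ[X])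
    (hirr : Irreducible (Q.map (Int.castRingHom (ZMod ℓ))))
    (hmonic : (Q.map (Int.castRingHom (ZMod ℓ))).Monic)
    (hdvd : Q.map (Int.castRingHom (ZMod ℓ)) ∣ cyclotomic p (ZMod ℓ))
    (α β γ u w : 𝓞 K) (h1 : (ℓ : 𝓞 K) = α * β) (h2 : aeval hζ.toInteger Q = α * γ)
    (h3 : α = (ℓ : 𝓞 K) * u + aeval hζ.toInteger Q * w) :
    ∃ P ∈ primesOver (span {(ℓ : ℤ)}) (𝓞 K), Submodule.IsPrincipal P := by
  have hexp : ¬ ℓ ∣ RingOfIntegers.exponent hζ.toInteger := by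
    rw [RingOfIntegers.exponent_eq_one_iff.mpr <|
      IsCyclotomicExtension.Rat.adjoin_singleton_eq_top hζ]
    exact (Fact.out : ℓ.Prime).not_dvd_one
  have hmin : minpoly ℤ hζ.toInteger = cyclotomic p ℤ := by
    rw [cyclotomic_eq_minpoly hζ (NeZero.pos p)]
    exact (minpoly.algebraMap_eq (RingOfIntegers.coe_injective) hζ.toInteger).symm
  have hQ : Q.map (Int.castRingHom (ZMod ℓ)) ∈ RingOfIntegers.monicFactorsMod hζ.toInteger ℓ := by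
    rw [Multiset.mem_toFinset, Polynomial.mem_normalizedFactors_iff
      (map_monic_ne_zero (minpoly.monic hζ.toInteger.isIntegral))]
    refine ⟨hirr, hmonic, ?_⟩
    rw [hmin, map_cyclotomic_int]
    exact hdvd
  refine ⟨_, ((NumberField.Ideal.primesOverSpanEquivMonicFactorsMod hexp).symm ⟨_, hQ⟩).prop, ?_⟩
  rw [NumberField.Ideal.primesOverSpanEquivMonicFactorsMod_symm_apply_eq_span hexp hQ]
  refine ⟨α, ?_⟩
  apply le_antisymm
  · rw [Ideal.span_le]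
    intro x hx
    simp only [Set.mem_insert_iff, Set.mem_singleton_iff] at hx
    rcases hx with rfl | rfl
    · exact Ideal.mem_span_singleton.mpr ⟨β, h1⟩
    · exact Ideal.mem_span_singleton.mpr ⟨γ, h2⟩
  · rw [Ideal.submodule_span_eq, Ideal.span_le]
    intro x hx
    rw [Set.mem_singleton_iff] at hx
    rw [hx, h3]
    exact Ideal.add_mem _ (Ideal.mul_mem_right _ _ (Ideal.subset_span (by simp)))
      (Ideal.mul_mem_right _ _ (Ideal.subset_span (by simp)))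

end generic

section thirteen


variable {K : Type*} [Field K] [NumberField K]
  [IsCyclotomicExtension {13} ℚ K] {ζ : K} (hζ : IsPrimitiveRoot ζ 13)

omit [NumberField K] [IsCyclotomicExtension {13} ℚ K] in
include hζ in
theorem pid13_geom : ∑ i ∈ Finset.range 13, hζ.toInteger ^ i = 0 :=
  hζ.toInteger_isPrimitiveRoot.geom_sum_eq_zero (by norm_num)

theorem pid13_lin_cert (ℓ : ℕ) [Fact ℓ.Prime] (g : ℤ)
    (hg : ∑ i ∈ Finset.range 13, (g : ZMod ℓ) ^ i = 0) :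
    Irreducible ((X - C g : ℤ[X]).map (Int.castRingHom (ZMod ℓ))) ∧
    ((X - C g : ℤ[X]).map (Int.castRingHom (ZMod ℓ))).Monic ∧
    (X - C g : ℤ[X]).map (Int.castRingHom (ZMod ℓ)) ∣ cyclotomic 13 (ZMod ℓ) := by
  have : Fact (Nat.Prime 13) := ⟨by norm_num⟩
  have h : (X - C g : ℤ[X]).map (Int.castRingHom (ZMod ℓ)) = X - C (g : ZMod ℓ) := by
    simp
  rw [h]
  refine ⟨irreducible_X_sub_C _, monic_X_sub_C _, ?_⟩
  rw [dvd_iff_isRoot, cyclotomic_prime, IsRoot.def, eval_geom_sum]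
  exact hg

theorem pid13_cubic_cert :
    Irreducible ((X ^ 3 - X - 1 : ℤ[X]).map (Int.castRingHom (ZMod 3))) ∧
    ((X ^ 3 - X - 1 : ℤ[X]).map (Int.castRingHom (ZMod 3))).Monic ∧
    (X ^ 3 - X - 1 : ℤ[X]).map (Int.castRingHom (ZMod 3)) ∣ cyclotomic 13 (ZMod 3) := by
  have hroot : ∀ x : ZMod 3, ¬ x ^ 3 - x - 1 = 0 := by decide
  have : Fact (Nat.Prime 13) := ⟨by norm_num⟩
  have : Fact (Nat.Prime 3) := ⟨by norm_num⟩
  have h : (X ^ 3 - X - 1 : ℤ[X]).map (Int.castRingHom (ZMod 3)) = X ^ 3 - X - 1 := by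
    simp
  rw [h]
  have hdeg : (X ^ 3 - X - 1 : (ZMod 3)[X]).natDegree = 3 := by compute_degree!
  have hmon : (X ^ 3 - X - 1 : (ZMod 3)[X]).Monic := by monicity!
  refine ⟨?_, hmon, ?_⟩
  · apply irreducible_of_degree_le_three_of_not_isRoot
    · rw [hdeg]; simp
    · intro x
      simp only [IsRoot.def, eval_sub, eval_pow, eval_X, eval_one]
      exact hroot x
  · have h3 : (3 : (ZMod 3)[X]) = 0 := by
      have : ((3 : ℕ) : (ZMod 3)[X]) = 0 := CharP.cast_eq_zero _ 3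
      exact_mod_cast this
    refine ⟨-1 - X ^ 2 - X ^ 3 + X ^ 5 - X ^ 7 + X ^ 8 + X ^ 9, ?_⟩
    rw [cyclotomic_prime]
    simp only [Finset.sum_range_succ, Finset.sum_range_zero]
    linear_combination (X ^ 5 + X ^ 6 + X ^ 9 + X ^ 10) * h3

include hζ in
theorem pid13_l53 : ∃ P ∈ primesOver (span {((53 : ℕ) : ℤ)}) (𝓞 K), Submodule.IsPrincipal P := by
  have hg : ∑ i ∈ Finset.range 13, ((16 : ℤ) : ZMod 53) ^ i = 0 := by decide
  have : Fact (Nat.Prime 53) := ⟨by norm_num⟩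
  have hz := pid13_geom hζ
  simp only [Finset.sum_range_succ, Finset.sum_range_zero] at hz
  obtain ⟨ha, hb, hc⟩ := pid13_lin_cert 53 16 hg
  set z := hζ.toInteger with hzdef
  refine pid13_exists_principal hζ 53 (X - C 16) ha hb hc (1 - z + z ^ 3)
    (25 + 10 * z + 19 * z ^ 2 + 3 * z ^ 3 + 2 * z ^ 4 - 8 * z ^ 5 - 2 * z ^ 6 + 5 * z ^ 7 + 22 * z ^ 8 + 33 * z ^ 9 + 37 * z ^ 10 + 24 * z ^ 11)
    (-8 - 3 * z - 6 * z ^ 2 - z ^ 3 - z ^ 4 + 2 * z ^ 5 - 2 * z ^ 7 - 7 * z ^ 8 - 10 * z ^ 9 - 11 * z ^ 10 - 7 * z ^ 11)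
    (77) (255 + 16 * z + z ^ 2) ?_ ?_ ?_
  · push_cast
    linear_combination (28 - 13 * z - 24 * z ^ 2) * hz
  · simp only [map_sub, aeval_X, aeval_C, ← hzdef]
    simp only [eq_intCast, Int.cast_ofNat]
    linear_combination (-8 + 4 * z + 7 * z ^ 2) * hz
  · simp only [map_sub, aeval_X, aeval_C, ← hzdef]
    simp only [eq_intCast, Int.cast_ofNat]
    push_cast
    ring

include hζ in
theorem pid13_l79 : ∃ P ∈ primesOver (span {((79 : ℕ) : ℤ)}) (𝓞 K), Submodule.IsPrincipal P := by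
  have hg : ∑ i ∈ Finset.range 13, ((62 : ℤ) : ZMod 79) ^ i = 0 := by decide
  have : Fact (Nat.Prime 79) := ⟨by norm_num⟩
  have hz := pid13_geom hζ
  simp only [Finset.sum_range_succ, Finset.sum_range_zero] at hz
  obtain ⟨ha, hb, hc⟩ := pid13_lin_cert 79 62 hg
  set z := hζ.toInteger with hzdef
  refine pid13_exists_principal hζ 79 (X - C 62) ha hb hc (1 - z - z ^ 4)
    (62 + 63 * z + 49 * z ^ 2 + 8 * z ^ 3 + 29 * z ^ 4 + 51 * z ^ 5 + 59 * z ^ 6 + 26 * z ^ 7 + 14 * z ^ 8 + 24 * z ^ 9 + 42 * z ^ 10 + 27 * z ^ 11)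
    (-49 - 49 * z - 38 * z ^ 2 - 6 * z ^ 3 - 23 * z ^ 4 - 40 * z ^ 5 - 46 * z ^ 6 - 20 * z ^ 7 - 11 * z ^ 8 - 19 * z ^ 9 - 33 * z ^ 10 - 21 * z ^ 11)
    (-187043) (-238329 - 3844 * z - 62 * z ^ 2 - z ^ 3) ?_ ?_ ?_
  · push_cast
    linear_combination (17 - 18 * z + 15 * z ^ 2 + 27 * z ^ 3) * hz
  · simp only [map_sub, aeval_X, aeval_C, ← hzdef]
    simp only [eq_intCast, Int.cast_ofNat]
    linear_combination (-13 + 14 * z - 12 * z ^ 2 - 21 * z ^ 3) * hz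
  · simp only [map_sub, aeval_X, aeval_C, ← hzdef]
    simp only [eq_intCast, Int.cast_ofNat]
    push_cast
    ring

include hζ in
theorem pid13_l131 : ∃ P ∈ primesOver (span {((131 : ℕ) : ℤ)}) (𝓞 K), Submodule.IsPrincipal P := by
  have hg : ∑ i ∈ Finset.range 13, ((80 : ℤ) : ZMod 131) ^ i = 0 := by decide
  have : Fact (Nat.Prime 131) := ⟨by norm_num⟩
  have hz := pid13_geom hζ
  simp only [Finset.sum_range_succ, Finset.sum_range_zero] at hz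
  obtain ⟨ha, hb, hc⟩ := pid13_lin_cert 131 80 hg
  set z := hζ.toInteger with hzdef
  refine pid13_exists_principal hζ 131 (X - C 80) ha hb hc (1 - z - z ^ 3)
    (111 + 78 * z + 17 * z ^ 2 + 67 * z ^ 3 + 84 * z ^ 4 + 40 * z ^ 5 + 46 * z ^ 6 + 69 * z ^ 7 + 48 * z ^ 8 + 33 * z ^ 9 + 41 * z ^ 10 + 28 * z ^ 11)
    (-68 - 47 * z - 10 * z ^ 2 - 41 * z ^ 3 - 51 * z ^ 4 - 24 * z ^ 5 - 28 * z ^ 6 - 42 * z ^ 7 - 29 * z ^ 8 - 20 * z ^ 9 - 25 * z ^ 10 - 17 * z ^ 11)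
    (-3909) (-6401 - 80 * z - z ^ 2) ?_ ?_ ?_
  · push_cast
    linear_combination (20 + 13 * z + 28 * z ^ 2) * hz
  · simp only [map_sub, aeval_X, aeval_C, ← hzdef]
    simp only [eq_intCast, Int.cast_ofNat]
    linear_combination (-12 - 8 * z - 17 * z ^ 2) * hz
  · simp only [map_sub, aeval_X, aeval_C, ← hzdef]
    simp only [eq_intCast, Int.cast_ofNat]
    push_cast
    ring

include hζ in
theorem pid13_l157 : ∃ P ∈ primesOver (span {((157 : ℕ) : ℤ)}) (𝓞 K), Submodule.IsPrincipal P := by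
  have hg : ∑ i ∈ Finset.range 13, ((75 : ℤ) : ZMod 157) ^ i = 0 := by decide
  have : Fact (Nat.Prime 157) := ⟨by norm_num⟩
  have hz := pid13_geom hζ
  simp only [Finset.sum_range_succ, Finset.sum_range_zero] at hz
  obtain ⟨ha, hb, hc⟩ := pid13_lin_cert 157 75 hg
  set z := hζ.toInteger with hzdef
  refine pid13_exists_principal hζ 157 (X - C 75) ha hb hc (1 - z + z ^ 2 + z ^ 4)
    (89 + 86 * z + 42 * z ^ 2 + 77 * z ^ 3 + 67 * z ^ 4 + 25 * z ^ 5 + 37 * z ^ 6 + 56 * z ^ 7 + 73 * z ^ 8 + 113 * z ^ 9 + 124 * z ^ 10 + 76 * z ^ 11)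
    (-43 - 41 * z - 20 * z ^ 2 - 37 * z ^ 3 - 32 * z ^ 4 - 12 * z ^ 5 - 18 * z ^ 6 - 27 * z ^ 7 - 35 * z ^ 8 - 54 * z ^ 9 - 59 * z ^ 10 - 36 * z ^ 11)
    (201568) (421949 + 5626 * z + 75 * z ^ 2 + z ^ 3) ?_ ?_ ?_
  · push_cast
    linear_combination (68 - 65 * z - 48 * z ^ 2 - 76 * z ^ 3) * hz
  · simp only [map_sub, aeval_X, aeval_C, ← hzdef]
    simp only [eq_intCast, Int.cast_ofNat]
    linear_combination (-32 + 31 * z + 23 * z ^ 2 + 36 * z ^ 3) * hz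
  · simp only [map_sub, aeval_X, aeval_C, ← hzdef]
    simp only [eq_intCast, Int.cast_ofNat]
    push_cast
    ring

include hζ in
theorem pid13_l3 : ∃ P ∈ primesOver (span {((3 : ℕ) : ℤ)}) (𝓞 K), Submodule.IsPrincipal P := by
  have : Fact (Nat.Prime 3) := ⟨by norm_num⟩
  have hz := pid13_geom hζ
  simp only [Finset.sum_range_succ, Finset.sum_range_zero] at hz
  obtain ⟨ha, hb, hc⟩ := pid13_cubic_cert
  set z := hζ.toInteger with hzdef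
  refine pid13_exists_principal hζ 3 (X ^ 3 - X - 1) ha hb hc (z ^ 3 - z - 1)
    (1 + z ^ 2 + z ^ 3 + 2 * z ^ 5 + z ^ 7 + 2 * z ^ 8 - z ^ 9 + 3 * z ^ 10)
    1 0 1 ?_ ?_ ?_
  · push_cast
    linear_combination (4 - 3 * z) * hz
  · simp only [map_sub, map_pow, aeval_X, map_one, ← hzdef, mul_one]
  · simp only [map_sub, map_pow, aeval_X, map_one, ← hzdef, mul_one, mul_zero, zero_add]

end thirteen


/-- boolean check used in `pid13_comb_aux` -/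
def pid13_chk (ℓ f : ℕ) : Bool :=
  !(decide (2 ≤ ℓ) && decide (1 ≤ f) && (ℓ % 2 != 0 || ℓ == 2) && (ℓ % 3 != 0 || ℓ == 3) &&
    (ℓ % 5 != 0 || ℓ == 5) && (ℓ % 7 != 0 || ℓ == 7) && (ℓ % 11 != 0 || ℓ == 11) &&
    (ℓ % 13 != 0 || ℓ == 13) && (ℓ % 17 != 0 || ℓ == 17) && decide (ℓ ^ f ≤ 306) &&
    ℓ ^ f % 13 == 1) || (ℓ == 3 || ℓ == 53 || ℓ == 79 || ℓ == 131 || ℓ == 157)

set_option maxRecDepth 100000 in
theorem pid13_chk_all : ∀ ℓ < 307, ∀ f < 9, pid13_chk ℓ f = true := by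
  decide

theorem pid13_comb_aux (ℓ : ℕ) (hℓ : ℓ < 307) (f : ℕ) (hf : f < 9) (h2 : 2 ≤ ℓ) (h1 : 1 ≤ f)
    (a2 : ℓ % 2 = 0 → ℓ = 2) (a3 : ℓ % 3 = 0 → ℓ = 3) (a5 : ℓ % 5 = 0 → ℓ = 5)
    (a7 : ℓ % 7 = 0 → ℓ = 7)
    (a11 : ℓ % 11 = 0 → ℓ = 11) (a13 : ℓ % 13 = 0 → ℓ = 13) (a17 : ℓ % 17 = 0 → ℓ = 17)
    (hle : ℓ ^ f ≤ 306) (hmod : ℓ ^ f % 13 = 1) :
    ℓ = 3 ∨ ℓ = 53 ∨ ℓ = 79 ∨ ℓ = 131 ∨ ℓ = 157 := by
  have h := pid13_chk_all ℓ hℓ f hf
  simp only [pid13_chk, Bool.or_eq_true, Bool.not_eq_true', Bool.and_eq_false_iff,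
    decide_eq_false_iff_not, beq_iff_eq, Bool.or_eq_false_iff, bne_eq_false_iff_eq,
    beq_eq_false_iff_ne] at h
  generalize ℓ ^ f = N at *
  omega

theorem pid13_comb (ℓ : ℕ) (hℓ : ℓ.Prime) (hle : ℓ ≤ 306) (h13 : ℓ ≠ 13)
    (hne : ¬ (ℓ = 3 ∨ ℓ = 53 ∨ ℓ = 79 ∨ ℓ = 131 ∨ ℓ = 157)) :
    306 < ℓ ^ orderOf (ℓ : ZMod 13) := by
  have : Fact (Nat.Prime 13) := ⟨by norm_num⟩
  by_contra hcon
  push Not at hcon
  have hne0 : (ℓ : ZMod 13) ≠ 0 := by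
    intro h
    rw [ZMod.natCast_eq_zero_iff] at h
    exact h13 ((Nat.prime_dvd_prime_iff_eq (by norm_num) hℓ).mp h).symm
  have hfin : IsOfFinOrder (ℓ : ZMod 13) :=
    isOfFinOrder_iff_pow_eq_one.mpr ⟨12, by norm_num, ZMod.pow_card_sub_one_eq_one hne0⟩
  have hpos : 0 < orderOf (ℓ : ZMod 13) := orderOf_pos_iff.mpr hfin
  have hone : ℓ ^ orderOf (ℓ : ZMod 13) % 13 = 1 := by
    have h := pow_orderOf_eq_one (ℓ : ZMod 13)
    have h' : ((ℓ ^ orderOf (ℓ : ZMod 13) : ℕ) : ZMod 13) = ((1 : ℕ) : ZMod 13) := by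
      push_cast; exact h
    rw [ZMod.natCast_eq_natCast_iff'] at h'
    exact h'
  have hf9 : orderOf (ℓ : ZMod 13) < 9 := by
    by_contra h9
    push Not at h9
    have : 2 ^ 9 ≤ ℓ ^ orderOf (ℓ : ZMod 13) :=
      (Nat.pow_le_pow_left hℓ.two_le 9).trans (Nat.pow_le_pow_right hℓ.pos h9)
    omega
  have hd : ∀ d : ℕ, d.Prime → ℓ % d = 0 → ℓ = d := fun d hd h =>
    ((Nat.prime_dvd_prime_iff_eq hd hℓ).mp (Nat.dvd_of_mod_eq_zero h)).symm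
  exact hne (pid13_comb_aux ℓ (by omega) _ hf9 hℓ.two_le hpos (hd 2 (by norm_num))
    (hd 3 (by norm_num)) (hd 5 (by norm_num)) (hd 7 (by norm_num)) (hd 11 (by norm_num))
    (hd 13 (by norm_num)) (hd 17 (by norm_num)) hcon hone)


section main

variable (K : Type*) [Field K] [NumberField K] [IsCyclotomicExtension {13} ℚ K]

theorem pid13_bound : ⌊(4 / π) ^ nrComplexPlaces K *
    ((finrank ℚ K)! / (finrank ℚ K) ^ (finrank ℚ K) * √|discr K|)⌋₊ ≤ 306 := by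
  have : Fact (Nat.Prime 13) := ⟨by norm_num⟩
  rw [IsCyclotomicExtension.Rat.discr_prime 13 K, IsCyclotomicExtension.finrank (n := 13) K
    (cyclotomic.irreducible_rat (by simp)),
    IsCyclotomicExtension.Rat.nrComplexPlaces_eq_totient_div_two 13,
    totient_prime (by norm_num : Nat.Prime 13)]
  have h12 : (12 : ℕ)! = 479001600 := by decide
  have hs : √|(((-1 : ℤ) ^ ((13 - 1) / 2) * ((13 : ℕ) : ℤ) ^ (13 - 2) : ℤ) : ℝ)| ≤ 1338720 := by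
    rw [Real.sqrt_le_left (by norm_num)]
    norm_num
  have hpi : (4 / π) ≤ 4 / 3.1415 := by
    gcongr
    exact Real.pi_gt_d4.le
  have hlt : (4 / π) ^ ((13 - 1) / 2) *
      ((((13 - 1 : ℕ))! : ℝ) / ((13 - 1 : ℕ) : ℝ) ^ (13 - 1) *
        √|(((-1 : ℤ) ^ ((13 - 1) / 2) * ((13 : ℕ) : ℤ) ^ (13 - 2) : ℤ) : ℝ)|) < 307 := by
    calc _ ≤ (4 / 3.1415) ^ ((13 - 1) / 2) *
      ((((13 - 1 : ℕ))! : ℝ) / ((13 - 1 : ℕ) : ℝ) ^ (13 - 1) * 1338720) := by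
          gcongr
      _ < 307 := by
          norm_num [h12]
  have := Nat.floor_lt' (a := (4 / π) ^ ((13 - 1) / 2) *
      ((((13 - 1 : ℕ))! : ℝ) / ((13 - 1 : ℕ) : ℝ) ^ (13 - 1) *
        √|(((-1 : ℤ) ^ ((13 - 1) / 2) * ((13 : ℕ) : ℤ) ^ (13 - 2) : ℤ) : ℝ)|)) (n := 307) (by norm_num)
  exact Nat.lt_succ_iff.mp (this.mpr (by exact_mod_cast hlt))


/-- The ring of integers of the 13-th cyclotomic field is a PID. -/
theorem pid_thirteen : IsPrincipalIdealRing (𝓞 K) := by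
  have : IsGalois ℚ K := IsCyclotomicExtension.isGalois {13} ℚ K
  have hζ := IsCyclotomicExtension.zeta_spec 13 ℚ K
  apply RingOfIntegers.isPrincipalIdealRing_of_isPrincipal_of_lt_or_isPrincipal_of_mem_primesOver_of_mem_Icc
  intro ℓ hℓ hprime
  have hB := pid13_bound K
  have hle : ℓ ≤ 306 := (Finset.mem_Icc.mp hℓ).2.trans hB
  by_cases h13 : ℓ = 13
  · subst h13
    have : Fact (Nat.Prime 13) := ⟨by norm_num⟩
    exact ⟨span {hζ.toInteger - 1},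
      ⟨IsCyclotomicExtension.Rat.isPrime_span_zeta_sub_one' 13 hζ,
        IsCyclotomicExtension.Rat.liesOver_span_zeta_sub_one 13 0 (by simp)⟩,
      Or.inr ⟨_, rfl⟩⟩
  by_cases hex : ℓ = 3 ∨ ℓ = 53 ∨ ℓ = 79 ∨ ℓ = 131 ∨ ℓ = 157
  · rcases hex with rfl | rfl | rfl | rfl | rfl
    · obtain ⟨P, hP, h⟩ := pid13_l3 hζ
      exact ⟨P, hP, Or.inr h⟩
    · obtain ⟨P, hP, h⟩ := pid13_l53 hζ
      exact ⟨P, hP, Or.inr h⟩
    · obtain ⟨P, hP, h⟩ := pid13_l79 hζ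
      exact ⟨P, hP, Or.inr h⟩
    · obtain ⟨P, hP, h⟩ := pid13_l131 hζ
      exact ⟨P, hP, Or.inr h⟩
    · obtain ⟨P, hP, h⟩ := pid13_l157 hζ
      exact ⟨P, hP, Or.inr h⟩
  · have : Fact ℓ.Prime := ⟨hprime⟩
    obtain ⟨⟨P, hP1, hP2⟩⟩ := (span {(ℓ : ℤ)}).nonempty_primesOver (S := 𝓞 K)
    refine ⟨P, ⟨hP1, hP2⟩, Or.inl ?_⟩
    have hnd : ¬ ℓ ∣ 13 := by
      intro h
      exact h13 ((Nat.prime_dvd_prime_iff_eq hprime (by norm_num)).mp h)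
    rw [IsCyclotomicExtension.Rat.inertiaDeg_eq_of_not_dvd ℓ K P hnd]
    exact lt_of_le_of_lt hB (pid13_comb ℓ hprime hle h13 hex)

end main

end Fermat.Agent.Kummer
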