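import Fermat.Agent.Kummer.PID

/-!
# `ℤ[ζ₇]` is a principal ideal domain
-/

set_option autoImplicit false

namespace Fermat.Agent.Kummer

open NumberField Ideal Polynomial Module InfinitePlace IsCyclotomicExtension.Rat
open scoped Real Nat

theorem pid_seven (K : Type*) [Field K] [NumberField K] [IsCyclotomicExtension {7} ℚ K] :
    IsPrincipalIdealRing (𝓞 K) := by
  have : Fact (Nat.Prime 7) := ⟨by norm_num⟩
  apply pid_of_bound 7 K 4
  · rw [discr_prime 7 K, IsCyclotomicExtension.finrank (n := 7) K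
      (cyclotomic.irreducible_rat (by simp)), nrComplexPlaces_eq_totient_div_two 7,
      Nat.totient_prime (by norm_num)]
    have h1 : (4 / π) < 4 / 3.14 := by
      gcongr
      exact Real.pi_gt_d2
    have h2 : √(16807 : ℝ) < 130 := by
      rw [Real.sqrt_lt' (by norm_num)]
      norm_num
    have h3 : |((((-1 : ℤ) ^ ((7 - 1) / 2) * ((7 : ℕ) : ℤ) ^ (7 - 2)) : ℤ) : ℝ)| = 16807 := by
      norm_num
    have h4 : ((7 - 1 : ℕ)! : ℝ) = 720 := by
      norm_num [Nat.factorial]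
    rw [h3, h4]
    calc (4 / π) ^ ((7 - 1) / 2) * (720 / ((7 - 1 : ℕ) : ℝ) ^ (7 - 1) * √16807)
        < (4 / 3.14) ^ ((7 - 1) / 2) * (720 / ((7 - 1 : ℕ) : ℝ) ^ (7 - 1) * 130) := by
          gcongr
      _ < ((4 : ℕ) : ℝ) + 1 := by norm_num
  · intro ℓ hℓ hp hne
    left
    intro f hf hle
    have h2 : 2 ≤ ℓ ^ f := hp.two_le.trans (Nat.le_self_pow hf.ne' ℓ)
    omega

end Fermat.Agent.Kummer
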